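/-
S41 leaf C1 [HECKE-HOM] (helper15): abstract double-coset operators on `Hom(Γ, A)`.

`G` ambient group, `e : Γ →* G`, `e' : Γ' →* G` (with `e` injective), `α : ι → G` a finite family of
"coset representatives" which is *stable*: for every `γ' : Γ'` there are a permutation `σ` of `ι`
and `c : ι → Γ` with `α i * e' γ' = e (c i) * α (σ i)`.  The operator is
`(heckeHom φ) γ' = ∑ i, φ (c i)` (transfer formula; `heckeHom_apply_of_reps`), for ANY such
`(σ, c)`.  Internally it is defined through a `φ`-equivariant primitive `prim e φ : G → A`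
(`prim (e γ * x) = φ γ + prim x`) as `γ' ↦ ∑ i, (prim (α i * e' γ') - prim (α i))`, which makes
independence of all choices, additivity, composition, and multiplicities painless.

Mathlib only.
-/
import Mathlib

set_option autoImplicit false
set_option linter.unusedSectionVars false
set_option linter.unusedSimpArgs false

namespace Fermat.Agent.S41.Hecke15

open scoped BigOperators

section Abstract

variable {G Γ Γ' Γ'' : Type*} [Group G] [Group Γ] [Group Γ'] [Group Γ'']
variable {A : Type*} [AddCommGroup A]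

/-! ### The `Γ`-part of an element of the ambient group -/

theorem exists_cosetPart (e : Γ →* G) (x : G) :
    ∃ γ : Γ, e γ = x * ((Quotient.mk (QuotientGroup.rightRel e.range) x).out)⁻¹ := by
  have h : (QuotientGroup.rightRel e.range)
      ((Quotient.mk (QuotientGroup.rightRel e.range) x).out) x :=
    Quotient.mk_out (s := QuotientGroup.rightRel e.range) x
  rw [QuotientGroup.rightRel_apply] at h
  exact h

/-- Write `x = e γ * x₀` with `x₀` the chosen representative of the coset `e(Γ) x`; this is `γ`. -/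
noncomputable def cosetPart (e : Γ →* G) (x : G) : Γ := Classical.choose (exists_cosetPart e x)

theorem cosetPart_spec (e : Γ →* G) (x : G) :
    e (cosetPart e x) = x * ((Quotient.mk (QuotientGroup.rightRel e.range) x).out)⁻¹ :=
  Classical.choose_spec (exists_cosetPart e x)

theorem cosetPart_mul (e : Γ →* G) (he : Function.Injective e) (γ : Γ) (x : G) :
    cosetPart e (e γ * x) = γ * cosetPart e x := by
  apply he
  have hq : (Quotient.mk (QuotientGroup.rightRel e.range) (e γ * x)) =
      (Quotient.mk (QuotientGroup.rightRel e.range) x) := by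
    apply Quotient.sound
    change (QuotientGroup.rightRel e.range) (e γ * x) x
    rw [QuotientGroup.rightRel_apply]
    refine ⟨γ⁻¹, ?_⟩
    rw [map_inv]; group
  rw [cosetPart_spec, map_mul, cosetPart_spec, hq, mul_assoc]

/-- The canonical `φ`-equivariant primitive on `G`. -/
noncomputable def prim (e : Γ →* G) (φ : Additive Γ →+ A) (x : G) : A :=
  φ (Additive.ofMul (cosetPart e x))

theorem prim_mul (e : Γ →* G) (he : Function.Injective e) (φ : Additive Γ →+ A) (γ : Γ) (x : G) :
    prim e φ (e γ * x) = φ (Additive.ofMul γ) + prim e φ x := by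
  unfold prim
  rw [cosetPart_mul e he, ofMul_mul, map_add]

theorem prim_add (e : Γ →* G) (φ₁ φ₂ : Additive Γ →+ A) (x : G) :
    prim e (φ₁ + φ₂) x = prim e φ₁ x + prim e φ₂ x := rfl

theorem prim_zero (e : Γ →* G) (x : G) : prim e (0 : Additive Γ →+ A) x = 0 := rfl

/-! ### Stable families and the operator -/

/-- The family `α` is a union (with multiplicities) of left `e(Γ)`-cosets stable under right
multiplication by `e'(Γ')`. -/
def IsStable (e : Γ →* G) (e' : Γ' →* G) {ι : Type*} (α : ι → G) : Prop :=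
  ∀ γ' : Γ', ∃ (σ : ι ≃ ι) (c : ι → Γ), ∀ i, α i * e' γ' = e (c i) * α (σ i)

variable {ι κ : Type*} [Fintype ι] [Fintype κ]

/-- The underlying function of the double-coset operator. -/
noncomputable def heckeFun (e : Γ →* G) (e' : Γ' →* G) (α : ι → G) (φ : Additive Γ →+ A)
    (γ' : Γ') : A :=
  ∑ i, (prim e φ (α i * e' γ') - prim e φ (α i))

/-- **Transfer formula**, for any witnesses of stability at `γ'`. -/
theorem heckeFun_eq_sum (e : Γ →* G) (he : Function.Injective e) (e' : Γ' →* G) (α : ι → G)
    (φ : Additive Γ →+ A) (γ' : Γ') (σ : ι ≃ ι) (c : ι → Γ)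
    (h : ∀ i, α i * e' γ' = e (c i) * α (σ i)) :
    heckeFun e e' α φ γ' = ∑ i, φ (Additive.ofMul (c i)) := by
  unfold heckeFun
  rw [Finset.sum_sub_distrib]
  have h1 : ∑ i, prim e φ (α i * e' γ') =
      ∑ i, φ (Additive.ofMul (c i)) + ∑ i, prim e φ (α (σ i)) := by
    rw [← Finset.sum_add_distrib]
    refine Finset.sum_congr rfl fun i _ => ?_
    rw [h i, prim_mul e he]
  rw [h1, Equiv.sum_comp σ (fun i => prim e φ (α i))]
  abel

/-- The double-coset operator `Hom(Γ, A) → Hom(Γ', A)` attached to a stable family. -/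
noncomputable def heckeHom (e : Γ →* G) (he : Function.Injective e) (e' : Γ' →* G) (α : ι → G)
    (hα : IsStable e e' α) : (Additive Γ →+ A) →+ (Additive Γ' →+ A) where
  toFun φ :=
    { toFun := fun γ' => heckeFun e e' α φ γ'.toMul
      map_zero' := by
        have := heckeFun_eq_sum e he e' α φ 1 (Equiv.refl ι) (fun _ => 1) (fun i => by simp)
        simpa using this
      map_add' := by
        intro x y
        obtain ⟨σ₁, c₁, h₁⟩ := hα x.toMul
        obtain ⟨σ₂, c₂, h₂⟩ := hα y.toMul
        have h12 : ∀ i, α i * e' (x.toMul * y.toMul) =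
            e (c₁ i * c₂ (σ₁ i)) * α ((σ₁.trans σ₂) i) := by
          intro i
          rw [map_mul, ← mul_assoc, h₁ i, mul_assoc, h₂ (σ₁ i), map_mul, mul_assoc]
          rfl
        change heckeFun e e' α φ (x.toMul * y.toMul) = _
        rw [heckeFun_eq_sum e he e' α φ _ _ _ h12, heckeFun_eq_sum e he e' α φ _ _ _ h₁,
          heckeFun_eq_sum e he e' α φ _ _ _ h₂]
        simp only [ofMul_mul, map_add, Finset.sum_add_distrib]
        rw [Equiv.sum_comp σ₁ (fun i => φ (Additive.ofMul (c₂ i)))] }
  map_zero' := by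
    refine AddMonoidHom.ext fun γ' => ?_
    change heckeFun e e' α (0 : Additive Γ →+ A) γ'.toMul = 0
    simp [heckeFun, prim_zero]
  map_add' φ₁ φ₂ := by
    refine AddMonoidHom.ext fun γ' => ?_
    change heckeFun e e' α (φ₁ + φ₂) γ'.toMul =
      heckeFun e e' α φ₁ γ'.toMul + heckeFun e e' α φ₂ γ'.toMul
    simp only [heckeFun, prim_add]
    rw [← Finset.sum_add_distrib]
    refine Finset.sum_congr rfl fun i _ => ?_
    abel

theorem heckeHom_apply (e : Γ →* G) (he : Function.Injective e) (e' : Γ' →* G) (α : ι → G)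
    (hα : IsStable e e' α) (φ : Additive Γ →+ A) (γ' : Γ') :
    heckeHom e he e' α hα φ (Additive.ofMul γ') =
      ∑ i, (prim e φ (α i * e' γ') - prim e φ (α i)) := rfl

/-- **Transfer formula** for `heckeHom`: for ANY `(σ, c)` with `α i * e' γ' = e (c i) * α (σ i)`. -/
theorem heckeHom_apply_of_reps (e : Γ →* G) (he : Function.Injective e) (e' : Γ' →* G)
    (α : ι → G) (hα : IsStable e e' α) (φ : Additive Γ →+ A) (γ' : Γ') (σ : ι ≃ ι) (c : ι → Γ)
    (h : ∀ i, α i * e' γ' = e (c i) * α (σ i)) :
    heckeHom e he e' α hα φ (Additive.ofMul γ') = ∑ i, φ (Additive.ofMul (c i)) :=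
  heckeFun_eq_sum e he e' α φ γ' σ c h


/-- The value of the operator can be computed with ANY `φ`-equivariant primitive. -/
theorem heckeHom_apply_of_prim (e : Γ →* G) (he : Function.Injective e) (e' : Γ' →* G)
    (α : ι → G) (hα : IsStable e e' α) (φ : Additive Γ →+ A) (ψ : G → A)
    (hψ : ∀ (γ : Γ) (x : G), ψ (e γ * x) = φ (Additive.ofMul γ) + ψ x) (γ' : Γ') :
    heckeHom e he e' α hα φ (Additive.ofMul γ') = ∑ i, (ψ (α i * e' γ') - ψ (α i)) := by
  obtain ⟨σ, c, h⟩ := hα γ'
  rw [heckeHom_apply_of_reps e he e' α hα φ γ' σ c h, Finset.sum_sub_distrib]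
  have h1 : ∑ i, ψ (α i * e' γ') = ∑ i, φ (Additive.ofMul (c i)) + ∑ i, ψ (α (σ i)) := by
    rw [← Finset.sum_add_distrib]
    refine Finset.sum_congr rfl fun i _ => ?_
    rw [h i, hψ]
  rw [h1, Equiv.sum_comp σ (fun i => ψ (α i))]
  abel

/-! ### Linear version -/

/-- `heckeHom` as an `R`-linear map, when `A` is an `R`-module. -/
noncomputable def heckeLin (R : Type*) [Semiring R] [Module R A] (e : Γ →* G)
    (he : Function.Injective e) (e' : Γ' →* G) (α : ι → G) (hα : IsStable e e' α) :
    (Additive Γ →+ A) →ₗ[R] (Additive Γ' →+ A) where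
  toFun := heckeHom e he e' α hα
  map_add' := map_add _
  map_smul' r φ := by
    refine AddMonoidHom.ext fun γ' => ?_
    change heckeFun e e' α (r • φ) γ'.toMul = r • heckeFun e e' α φ γ'.toMul
    unfold heckeFun
    rw [Finset.smul_sum]
    refine Finset.sum_congr rfl fun i _ => ?_
    rw [smul_sub]
    rfl

@[simp] theorem heckeLin_apply (R : Type*) [Semiring R] [Module R A] (e : Γ →* G)
    (he : Function.Injective e) (e' : Γ' →* G) (α : ι → G) (hα : IsStable e e' α)
    (φ : Additive Γ →+ A) :
    heckeLin R e he e' α hα φ = heckeHom e he e' α hα φ := rfl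

/-! ### Changing representatives, disjoint unions, composition -/

/-- A family equivalent to a stable family (same left cosets, with multiplicities) is stable. -/
theorem IsStable.congr {e : Γ →* G} {e' : Γ' →* G} {α : ι → G} {α' : κ → G}
    (hα : IsStable e e' α) (π : ι ≃ κ) (d : ι → Γ) (h : ∀ i, α' (π i) = e (d i) * α i) :
    IsStable e e' α' := by
  intro γ'
  obtain ⟨σ, c, hc⟩ := hα γ'
  refine ⟨(π.symm.trans σ).trans π, fun k => d (π.symm k) * c (π.symm k) * (d (σ (π.symm k)))⁻¹,
    fun k => ?_⟩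
  obtain ⟨i, rfl⟩ := π.surjective k
  simp only [Equiv.symm_apply_apply, Equiv.trans_apply]
  rw [h i, h (σ i), mul_assoc, hc i, map_mul, map_mul, map_inv]
  group

/-- **Independence of representatives**: equivalent families give the same operator. -/
theorem heckeHom_congr (e : Γ →* G) (he : Function.Injective e) (e' : Γ' →* G)
    (α : ι → G) (α' : κ → G) (hα : IsStable e e' α) (hα' : IsStable e e' α')
    (π : ι ≃ κ) (d : ι → Γ) (h : ∀ i, α' (π i) = e (d i) * α i) :
    (heckeHom e he e' α hα : (Additive Γ →+ A) →+ _) = heckeHom e he e' α' hα' := by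
  refine AddMonoidHom.ext fun φ => AddMonoidHom.ext fun γ' => ?_
  change heckeFun e e' α φ γ'.toMul = heckeFun e e' α' φ γ'.toMul
  unfold heckeFun
  rw [← Equiv.sum_comp π]
  refine Finset.sum_congr rfl fun i _ => ?_
  rw [h i, mul_assoc, prim_mul e he, prim_mul e he]
  abel

theorem IsStable.sumElim {e : Γ →* G} {e' : Γ' →* G} {α : ι → G} {β : κ → G}
    (hα : IsStable e e' α) (hβ : IsStable e e' β) : IsStable e e' (Sum.elim α β) := by
  intro γ'
  obtain ⟨σ, c, hc⟩ := hα γ'
  obtain ⟨τ, c', hc'⟩ := hβ γ'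
  refine ⟨Equiv.sumCongr σ τ, Sum.elim c c', ?_⟩
  rintro (i | j)
  · simpa using hc i
  · simpa using hc' j

/-- The operator of a disjoint union of families is the sum of the operators. -/
theorem heckeHom_sumElim (e : Γ →* G) (he : Function.Injective e) (e' : Γ' →* G)
    (α : ι → G) (β : κ → G) (hα : IsStable e e' α) (hβ : IsStable e e' β) :
    (heckeHom e he e' (Sum.elim α β) (hα.sumElim hβ) : (Additive Γ →+ A) →+ _) =
      heckeHom e he e' α hα + heckeHom e he e' β hβ := by
  refine AddMonoidHom.ext fun φ => AddMonoidHom.ext fun γ' => ?_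
  change heckeFun e e' (Sum.elim α β) φ γ'.toMul =
    heckeFun e e' α φ γ'.toMul + heckeFun e e' β φ γ'.toMul
  unfold heckeFun
  rw [Fintype.sum_sum_type]
  rfl

/-- The product family of two stable families is stable. -/
theorem IsStable.mul {e : Γ →* G} {e' : Γ' →* G} {e'' : Γ'' →* G} {α : ι → G} {β : κ → G}
    (hα : IsStable e e' α) (hβ : IsStable e' e'' β) :
    IsStable e e'' (fun p : ι × κ => α p.1 * β p.2) := by
  intro γ''
  obtain ⟨τ, c', hc'⟩ := hβ γ''
  choose σ c hc using fun j => hα (c' j)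
  refine ⟨(Equiv.prodComm ι κ).trans ((Equiv.prodShear τ σ).trans (Equiv.prodComm κ ι)),
    fun p => c p.2 p.1, ?_⟩
  rintro ⟨i, j⟩
  simp only [Equiv.trans_apply, Equiv.prodComm_apply, Prod.swap_prod_mk, Equiv.prodShear_apply,
    Prod.fst_swap, Prod.snd_swap]
  rw [mul_assoc, hc' j, ← mul_assoc, hc j i, mul_assoc]

/-- **Composition** of double-coset operators is the operator of the product family. -/
theorem heckeHom_comp (e : Γ →* G) (he : Function.Injective e) (e' : Γ' →* G)
    (he' : Function.Injective e') (e'' : Γ'' →* G) (α : ι → G) (β : κ → G)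
    (hα : IsStable e e' α) (hβ : IsStable e' e'' β) (φ : Additive Γ →+ A) :
    heckeHom e' he' e'' β hβ (heckeHom e he e' α hα φ) =
      heckeHom e he e'' (fun p : ι × κ => α p.1 * β p.2) (hα.mul hβ) φ := by
  refine AddMonoidHom.ext fun γ'' => ?_
  obtain ⟨τ, c', hc'⟩ := hβ γ''.toMul
  choose σ c hc using fun j => hα (c' j)
  have hprod : ∀ p : ι × κ, (fun p : ι × κ => α p.1 * β p.2) p * e'' γ''.toMul =
      e (c p.2 p.1) * (fun p : ι × κ => α p.1 * β p.2)
        (((Equiv.prodComm ι κ).trans ((Equiv.prodShear τ σ).trans (Equiv.prodComm κ ι))) p) := by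
    rintro ⟨i, j⟩
    simp only [Equiv.trans_apply, Equiv.prodComm_apply, Prod.swap_prod_mk, Equiv.prodShear_apply,
      Prod.fst_swap, Prod.snd_swap]
    rw [mul_assoc, hc' j, ← mul_assoc, hc j i, mul_assoc]
  have h1 := heckeHom_apply_of_reps e' he' e'' β hβ (heckeHom e he e' α hα φ) γ''.toMul τ c' hc'
  have h2 := heckeHom_apply_of_reps e he e'' _ (hα.mul hβ) φ γ''.toMul _ _ hprod
  change heckeHom e' he' e'' β hβ (heckeHom e he e' α hα φ) (Additive.ofMul γ''.toMul) =
    heckeHom e he e'' _ (hα.mul hβ) φ (Additive.ofMul γ''.toMul)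
  rw [h1, h2, Fintype.sum_prod_type, Finset.sum_comm]
  refine Finset.sum_congr rfl fun j _ => ?_
  exact heckeHom_apply_of_reps e he e' α hα φ (c' j) (σ j) (c j) (hc j)

/-! ### One-element families: restriction composed with conjugation -/

theorem isStable_unit (e : Γ →* G) (e' : Γ' →* G) (a : G)
    (h : ∀ γ' : Γ', ∃ c : Γ, a * e' γ' = e c * a) : IsStable e e' (fun _ : Unit => a) := by
  intro γ'
  obtain ⟨c, hc⟩ := h γ'
  exact ⟨Equiv.refl _, fun _ => c, fun _ => hc⟩

theorem heckeHom_unit_apply (e : Γ →* G) (he : Function.Injective e) (e' : Γ' →* G) (a : G)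
    (hα : IsStable e e' (fun _ : Unit => a)) (φ : Additive Γ →+ A) (γ' : Γ') (c : Γ)
    (h : a * e' γ' = e c * a) :
    heckeHom e he e' (fun _ : Unit => a) hα φ (Additive.ofMul γ') = φ (Additive.ofMul c) := by
  rw [heckeHom_apply_of_reps e he e' _ hα φ γ' (Equiv.refl _) (fun _ => c) (fun _ => h)]
  simp

/-- A constant family with values in `e(Γ)`, for `Γ = Γ'`, acts as multiplication by its
cardinality (e.g. `cores ∘ res = index`). -/
theorem heckeHom_of_mem_range (e : Γ →* G) (he : Function.Injective e) (α : ι → G)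
    (hα : IsStable e e α) (d : ι → Γ) (hd : ∀ i, α i = e (d i)) (φ : Additive Γ →+ A) :
    heckeHom e he e α hα φ = Fintype.card ι • φ := by
  refine AddMonoidHom.ext fun γ => ?_
  have h : ∀ i, α i * e γ.toMul = e (d i * γ.toMul * (d i)⁻¹) * α ((Equiv.refl ι) i) := by
    intro i
    rw [Equiv.refl_apply, hd i, ← map_mul, ← map_mul]
    congr 1
    group
  change heckeHom e he e α hα φ (Additive.ofMul γ.toMul) = _
  rw [heckeHom_apply_of_reps e he e α hα φ γ.toMul _ _ h]
  have : ∀ i, φ (Additive.ofMul (d i * γ.toMul * (d i)⁻¹)) = φ γ := by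
    intro i
    rw [ofMul_mul, ofMul_mul, map_add, map_add, ofMul_inv, map_neg]
    change φ (Additive.ofMul (d i)) + φ γ + -φ (Additive.ofMul (d i)) = φ γ
    abel
  simp only [this, Finset.sum_const, Finset.card_univ, AddMonoidHom.coe_smul, Pi.smul_apply]

end Abstract

end Fermat.Agent.S41.Hecke15
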