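/-
S41 leaf C1 [HECKE-HOM] (helper15): further abstract lemmas on `heckeHom`
(functoriality in the coefficients, equivariance under an automorphism of the ambient group,
vanishing on "parabolic" elements).  Mathlib + Hecke15/Abstract only.
-/
import Mathlib
import Fermat.Agent.S41.Hecke15.Abstract

set_option autoImplicit false
set_option linter.unusedSectionVars false
set_option linter.unusedSimpArgs false

namespace Fermat.Agent.S41.Hecke15

open scoped BigOperators

section More

variable {G Γ Γ' : Type*} [Group G] [Group Γ] [Group Γ']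
variable {A B : Type*} [AddCommGroup A] [AddCommGroup B]
variable {ι : Type*} [Fintype ι]

/-- Functoriality in the coefficient group. -/
theorem heckeHom_map (e : Γ →* G) (he : Function.Injective e) (e' : Γ' →* G) (α : ι → G)
    (hα : IsStable e e' α) (χ : A →+ B) (φ : Additive Γ →+ A) :
    χ.comp (heckeHom e he e' α hα φ) = heckeHom e he e' α hα (χ.comp φ) := by
  refine AddMonoidHom.ext fun γ' => ?_
  change χ (heckeFun e e' α φ γ'.toMul) = heckeFun e e' α (χ.comp φ) γ'.toMul
  unfold heckeFun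
  rw [map_sum]
  refine Finset.sum_congr rfl fun i _ => ?_
  rw [map_sub]
  rfl

/-- Equivariance under an endomorphism `θ` of the ambient group which preserves `e(Γ)`, `e'(Γ')`
(inducing `j`, `j'`) and permutes the cosets of the family. -/
theorem heckeHom_conj (e : Γ →* G) (he : Function.Injective e) (e' : Γ' →* G) (α : ι → G)
    (hα : IsStable e e' α) (θ : G →* G) (j : Γ →* Γ) (j' : Γ' →* Γ')
    (hθ : ∀ γ, θ (e γ) = e (j γ)) (hθ' : ∀ γ', θ (e' γ') = e' (j' γ'))
    (π : ι ≃ ι) (d : ι → Γ) (hd : ∀ i, θ (α i) = e (d i) * α (π i)) (φ : Additive Γ →+ A) :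
    heckeHom e he e' α hα (φ.comp (MonoidHom.toAdditive j)) =
      (heckeHom e he e' α hα φ).comp (MonoidHom.toAdditive j') := by
  refine AddMonoidHom.ext fun γ' => ?_
  obtain ⟨σ, c, h⟩ := hα γ'.toMul
  have h1 := heckeHom_apply_of_reps e he e' α hα (φ.comp (MonoidHom.toAdditive j)) γ'.toMul σ c h
  have hw : ∀ k, α k * e' (j' γ'.toMul) =
      e ((d (π.symm k))⁻¹ * j (c (π.symm k)) * d (σ (π.symm k))) *
        α (((π.symm.trans σ).trans π) k) := by
    intro k
    obtain ⟨i, rfl⟩ := π.surjective k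
    simp only [Equiv.symm_apply_apply, Equiv.trans_apply]
    have h2 : θ (α i) * θ (e' γ'.toMul) = θ (e (c i)) * θ (α (σ i)) := by
      rw [← map_mul, ← map_mul, h i]
    rw [hd i, hd (σ i), hθ, hθ'] at h2
    rw [map_mul, map_mul, map_inv]
    have h3 : α (π i) * e' (j' γ'.toMul) = (e (d i))⁻¹ * (e (d i) * α (π i) * e' (j' γ'.toMul)) := by
      group
    rw [h3, h2]
    group
  have h4 := heckeHom_apply_of_reps e he e' α hα φ (j' γ'.toMul) _ _ hw
  change heckeHom e he e' α hα (φ.comp (MonoidHom.toAdditive j)) (Additive.ofMul γ'.toMul) =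
    heckeHom e he e' α hα φ (Additive.ofMul (j' γ'.toMul))
  rw [h1, h4]
  have h5 : ∑ k, φ (Additive.ofMul ((d (π.symm k))⁻¹ * j (c (π.symm k)) * d (σ (π.symm k)))) =
      ∑ i, φ (Additive.ofMul ((d i)⁻¹ * j (c i) * d (σ i))) :=
    Equiv.sum_comp π.symm (fun i => φ (Additive.ofMul ((d i)⁻¹ * j (c i) * d (σ i))))
  rw [h5]
  simp only [ofMul_mul, ofMul_inv, map_add, map_neg, Finset.sum_add_distrib,
    Finset.sum_neg_distrib]
  rw [Equiv.sum_comp σ (fun i => φ (Additive.ofMul (d i)))]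
  have : ∀ i, (φ.comp (MonoidHom.toAdditive j)) (Additive.ofMul (c i)) =
      φ (Additive.ofMul (j (c i))) := fun i => rfl
  simp only [this]
  abel

/-- Iterated cocycle along the orbit of `i`. -/
def iterC (σ : ι ≃ ι) (c : ι → Γ) : ℕ → ι → Γ
  | 0, _ => 1
  | (m + 1), i => c i * iterC σ c m (σ i)

theorem mul_pow_eq_iterC (e : Γ →* G) (e' : Γ' →* G) (α : ι → G) (γ' : Γ') (σ : ι ≃ ι)
    (c : ι → Γ) (h : ∀ i, α i * e' γ' = e (c i) * α (σ i)) (m : ℕ) (i : ι) :
    α i * e' γ' ^ m = e (iterC σ c m i) * α ((σ ^ m) i) := by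
  induction m generalizing i with
  | zero => simp [iterC]
  | succ m ih =>
    rw [pow_succ', ← mul_assoc, h i, mul_assoc, ih (σ i), iterC, map_mul, mul_assoc, pow_succ,
      Equiv.Perm.mul_apply]

/-- **Vanishing on "parabolic" elements**: if `φ` kills a class `P` of elements of `Γ`, and
every `c : Γ` with `a * e' γ' ^ n = e c * a` (`n ≠ 0`) is in `P`, then `heckeHom φ` kills `γ'`,
provided `A` has no `ℕ`-torsion. -/
theorem heckeHom_eq_zero_of_pow (e : Γ →* G) (he : Function.Injective e) (e' : Γ' →* G)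
    (α : ι → G) (hα : IsStable e e' α)
    (hA : ∀ (n : ℕ) (a : A), n ≠ 0 → n • a = 0 → a = 0)
    (P : Γ → Prop) (φ : Additive Γ →+ A) (hφ : ∀ γ, P γ → φ (Additive.ofMul γ) = 0) (γ' : Γ')
    (hP : ∀ (n : ℕ), n ≠ 0 → ∀ (a : G) (c : Γ), a * e' γ' ^ n = e c * a → P c) :
    heckeHom e he e' α hα φ (Additive.ofMul γ') = 0 := by
  classical
  obtain ⟨σ, c, h⟩ := hα γ'
  have hn : orderOf σ ≠ 0 := (orderOf_pos σ).ne'
  refine hA (orderOf σ) _ hn ?_
  have hpow : ∀ i, α i * e' (γ' ^ orderOf σ) =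
      e (iterC σ c (orderOf σ) i) * α ((Equiv.refl ι) i) := by
    intro i
    rw [map_pow, mul_pow_eq_iterC e e' α γ' σ c h, pow_orderOf_eq_one]
    rfl
  have h1 := heckeHom_apply_of_reps e he e' α hα φ (γ' ^ orderOf σ) _ _ hpow
  rw [ofMul_pow, map_nsmul] at h1
  rw [h1]
  refine Finset.sum_eq_zero fun i _ => hφ _ (hP (orderOf σ) hn (α i) _ ?_)
  have := hpow i
  rwa [map_pow] at this

end More

end Fermat.Agent.S41.Hecke15
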