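/-
S41 leaf C1 [HECKE-HOM] (helper15): the concrete Hecke operators `TX N A ℓ` on `Hom(Γ₀(N), A)`
in the `Hecke15` API (`heckeHom` of the families `tRep ℓ`, `uRep ℓ` of S16/HeckeHom24), the bridge
to the landed S16 operators `heckeTHom`, `heckeUHom`, and E1–E3 of `Final49` (period map
equivariance, `charInvolution`), parabolic stability, coefficient functoriality.
-/
import Mathlib
import Fermat.Agent.S16.HeckeHom24.Concrete
import Fermat.Agent.S16.HeckeHom24.Equivariance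
import Fermat.Agent.S16.HeckeHom24.Parabolic
import Fermat.Agent.S16.EquivAdapter95
import Fermat.Agent.S41.Hecke15.More

set_option autoImplicit false

open scoped MatrixGroups
open CongruenceSubgroup ModularForm ModularCurve ModularCurve.Period
open Fermat.Agent.S16.HeckeHom24

namespace Fermat.Agent.S41.Hecke15

/-- The embedding `Γ₀(N) → GL₂(ℝ)` (this is `S16.HeckeHom24.iota N`). -/
noncomputable abbrev eGL (N : ℕ) : Gamma0 N →* GL (Fin 2) ℝ := iota N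

theorem eGL_apply {N : ℕ} (γ : Gamma0 N) :
    eGL N γ = Matrix.SpecialLinearGroup.mapGL ℝ (γ : SL(2, ℤ)) := rfl

theorem eGL_injective (N : ℕ) : Function.Injective (eGL N) := iota_injective N

/-! ### Bridge: a `HeckeSys` of S16/HeckeHom24 is a stable family, with the same operator -/

section Bridge

variable {Γ G : Type*} [Group Γ] [Group G] {e : Γ →* G} {I : Type*}

theorem isStable_of_heckeSys (D : HeckeSys e I) : IsStable e e D.α :=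
  fun γ => ⟨D.permEquiv γ, D.elt γ, fun i => D.rel γ i⟩

theorem heckeHom_eq_op [Fintype I] {A : Type*} [AddCommGroup A] (D : HeckeSys e I) :
    (heckeHom e D.inj e D.α (isStable_of_heckeSys D) : (Additive Γ →+ A) →+ _) = D.op := by
  refine AddMonoidHom.ext fun φ => AddMonoidHom.ext fun γ => ?_
  obtain ⟨γ, rfl⟩ := Additive.ofMul.surjective γ
  rw [HeckeSys.op_apply]
  exact heckeHom_apply_of_reps e D.inj e D.α _ φ γ (D.permEquiv γ) (D.elt γ) (fun i => D.rel γ i)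

end Bridge

/-! ### The families of `T_ℓ` and `U_ℓ` -/

theorem stable_tRep {N ℓ : ℕ} (hℓ : ℓ.Prime) (hℓN : ¬ ℓ ∣ N) :
    IsStable (eGL N) (eGL N) (tRep ℓ) :=
  isStable_of_heckeSys (tSys N hℓ hℓN)

theorem stable_uRep {N ℓ : ℕ} [NeZero N] (hℓN : ℓ ∣ N) :
    IsStable (eGL N) (eGL N) (uRep ℓ) :=
  isStable_of_heckeSys (uSys N hℓN)

variable (N : ℕ) [NeZero N] (A : Type*) [AddCommGroup A]

/-- **The Hecke operator at `ℓ` on `Hom(Γ₀(N), A)`**: `T_ℓ` (family `tRep ℓ`) if `ℓ` is a prime not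
dividing `N`, `U_ℓ` (family `uRep ℓ`) if `ℓ` is a prime dividing `N`, and `0` otherwise. -/
noncomputable def TX (ℓ : ℕ) : (Additive (Gamma0 N) →+ A) →+ (Additive (Gamma0 N) →+ A) :=
  if hℓ : ℓ.Prime then
    if hℓN : ℓ ∣ N then heckeHom (eGL N) (eGL_injective N) (eGL N) (uRep ℓ) (stable_uRep hℓN)
    else heckeHom (eGL N) (eGL_injective N) (eGL N) (tRep ℓ) (stable_tRep hℓ hℓN)
  else 0

variable {N A}

theorem TX_of_not_dvd {ℓ : ℕ} (hℓ : ℓ.Prime) (hℓN : ¬ ℓ ∣ N) :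
    TX N A ℓ = heckeHom (eGL N) (eGL_injective N) (eGL N) (tRep ℓ) (stable_tRep hℓ hℓN) := by
  rw [TX, dif_pos hℓ, dif_neg hℓN]

theorem TX_of_dvd {ℓ : ℕ} (hℓ : ℓ.Prime) (hℓN : ℓ ∣ N) :
    TX N A ℓ = heckeHom (eGL N) (eGL_injective N) (eGL N) (uRep ℓ) (stable_uRep hℓN) := by
  rw [TX, dif_pos hℓ, dif_pos hℓN]

theorem TX_eq_heckeTHom {ℓ : ℕ} (hℓ : ℓ.Prime) (hℓN : ¬ ℓ ∣ N) :
    TX N A ℓ = heckeTHom N hℓ hℓN A := by
  rw [TX_of_not_dvd hℓ hℓN]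
  exact heckeHom_eq_op (tSys N hℓ hℓN)

theorem TX_eq_heckeUHom {ℓ : ℕ} (hℓ : ℓ.Prime) (hℓN : ℓ ∣ N) :
    TX N A ℓ = heckeUHom N hℓN A := by
  rw [TX_of_dvd hℓ hℓN]
  exact heckeHom_eq_op (uSys N hℓN)

/-- Transfer formula for `TX ℓ`, `ℓ ∤ N`, with ANY bookkeeping. -/
theorem TX_apply_of_reps_T {ℓ : ℕ} (hℓ : ℓ.Prime) (hℓN : ¬ ℓ ∣ N) (φ : Additive (Gamma0 N) →+ A)
    (γ : Gamma0 N) (σ : Option (Fin ℓ) ≃ Option (Fin ℓ)) (c : Option (Fin ℓ) → Gamma0 N)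
    (h : ∀ i, tRep ℓ i * eGL N γ = eGL N (c i) * tRep ℓ (σ i)) :
    TX N A ℓ φ (Additive.ofMul γ) = ∑ i, φ (Additive.ofMul (c i)) := by
  rw [TX_of_not_dvd hℓ hℓN]
  exact heckeHom_apply_of_reps _ _ _ _ _ φ γ σ c h

/-- Transfer formula for `TX ℓ`, `ℓ ∣ N`, with ANY bookkeeping. -/
theorem TX_apply_of_reps_U {ℓ : ℕ} (hℓ : ℓ.Prime) (hℓN : ℓ ∣ N) (φ : Additive (Gamma0 N) →+ A)
    (γ : Gamma0 N) (σ : Fin ℓ ≃ Fin ℓ) (c : Fin ℓ → Gamma0 N)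
    (h : ∀ i, uRep ℓ i * eGL N γ = eGL N (c i) * uRep ℓ (σ i)) :
    TX N A ℓ φ (Additive.ofMul γ) = ∑ i, φ (Additive.ofMul (c i)) := by
  rw [TX_of_dvd hℓ hℓN]
  exact heckeHom_apply_of_reps _ _ _ _ _ φ γ σ c h

/-- Functoriality of `TX` in the coefficients. -/
theorem TX_map {B : Type*} [AddCommGroup B] (χ : A →+ B) (ℓ : ℕ) (φ : Additive (Gamma0 N) →+ A) :
    χ.comp (TX N A ℓ φ) = TX N B ℓ (χ.comp φ) := by
  unfold TX
  split_ifs with hℓ hℓN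
  · exact heckeHom_map _ _ _ _ _ χ φ
  · exact heckeHom_map _ _ _ _ _ χ φ
  · simp

/-- `TX ℓ` as an `R`-linear endomorphism. -/
noncomputable def TXlin (R : Type*) [Semiring R] (N : ℕ) [NeZero N] (A : Type*) [AddCommGroup A]
    [Module R A] (ℓ : ℕ) : Module.End R (Additive (Gamma0 N) →+ A) where
  toFun := TX N A ℓ
  map_add' := map_add _
  map_smul' r φ := by
    unfold TX
    split_ifs with hℓ hℓN
    · exact (heckeLin R (eGL N) (eGL_injective N) (eGL N) (uRep ℓ) (stable_uRep hℓN)).map_smul r φ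
    · exact (heckeLin R (eGL N) (eGL_injective N) (eGL N) (tRep ℓ)
        (stable_tRep hℓ hℓN)).map_smul r φ
    · simp

@[simp] theorem TXlin_apply (R : Type*) [Semiring R] [Module R A] (ℓ : ℕ)
    (φ : Additive (Gamma0 N) →+ A) : TXlin R N A ℓ φ = TX N A ℓ φ := rfl

/-! ### E1, E2, E3 and parabolic stability -/

/-- **E1**: period-map equivariance, `ℓ ∤ N`. -/
theorem TX_periodMap_of_not_dvd {ℓ : ℕ} (hℓ : ℓ.Prime) (hℓN : ¬ ℓ ∣ N)
    (f : CuspForm (Gamma0 N) 2) :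
    TX N ℂ ℓ (periodMap N f) = periodMap N (CuspForm.heckeTLin 2 hℓ hℓN f) := by
  rw [TX_eq_heckeTHom hℓ hℓN, Fermat.Agent.S16.HeckeHom24.periodMap_heckeTLin hℓ hℓN f]

/-- **E2**: period-map equivariance, `ℓ ∣ N`. -/
theorem TX_periodMap_of_dvd {ℓ : ℕ} (hℓ : ℓ.Prime) (hℓN : ℓ ∣ N) (f : CuspForm (Gamma0 N) 2) :
    TX N ℂ ℓ (periodMap N f) = periodMap N (CuspForm.heckeULin 2 hℓN f) := by
  rw [TX_eq_heckeUHom hℓ hℓN, Fermat.Agent.S16.HeckeHom24.periodMap_heckeULin hℓN f]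

/-- **E3**: `TX ℓ` commutes with `charInvolution`. -/
theorem TX_charInvolution (R : Type*) [Semiring R] [Module R A] (ℓ : ℕ)
    (φ : Additive (Gamma0 N) →+ A) :
    TX N A ℓ (charInvolution N R A φ) = charInvolution N R A (TX N A ℓ φ) := by
  by_cases hℓ : ℓ.Prime
  · by_cases hℓN : ℓ ∣ N
    · rw [TX_eq_heckeUHom hℓ hℓN]
      exact (Fermat.Agent.S16.EquivAdapter95.charInvolution_heckeUHom hℓN R φ).symm
    · rw [TX_eq_heckeTHom hℓ hℓN]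
      exact (Fermat.Agent.S16.EquivAdapter95.charInvolution_heckeTHom hℓ hℓN R φ).symm
  · simp [TX, hℓ]

/-- `TX ℓ` preserves parabolic homomorphisms (torsion-free coefficients). -/
theorem TX_mem_parabolicHoms [IsAddTorsionFree A] (R : Type*) [Semiring R] [Module R A] (ℓ : ℕ)
    {φ : Additive (Gamma0 N) →+ A} (hφ : φ ∈ parabolicHoms R (Gamma0 N) A) :
    TX N A ℓ φ ∈ parabolicHoms R (Gamma0 N) A := by
  by_cases hℓ : ℓ.Prime
  · by_cases hℓN : ℓ ∣ N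
    · rw [TX_eq_heckeUHom hℓ hℓN]
      exact heckeUHom_mem_parabolicHoms R hℓN hφ
    · rw [TX_eq_heckeTHom hℓ hℓN]
      exact heckeTHom_mem_parabolicHoms R hℓ hℓN hφ
  · simp [TX, hℓ]

/-! ### The exact inputs of `Final49` (`levelRaising_tail_int`) -/

/-- `hE1` of `Final49`. -/
theorem final49_hE1 : ∀ ℓ (hℓ : ℓ.Prime) (hℓM : ¬ ℓ ∣ N) (f : CuspForm (Gamma0 N) 2),
    (fun ℓ => TXlin ℂ N ℂ ℓ) ℓ (periodMap N f) = periodMap N (CuspForm.heckeTLin 2 hℓ hℓM f) :=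
  fun _ hℓ hℓM f => TX_periodMap_of_not_dvd hℓ hℓM f

/-- `hE2` of `Final49`. -/
theorem final49_hE2 : ∀ ℓ (_ : ℓ.Prime) (hℓM : ℓ ∣ N) (f : CuspForm (Gamma0 N) 2),
    (fun ℓ => TXlin ℂ N ℂ ℓ) ℓ (periodMap N f) = periodMap N (CuspForm.heckeULin 2 hℓM f) :=
  fun _ hℓ hℓM f => TX_periodMap_of_dvd hℓ hℓM f

/-- `hE3` of `Final49`. -/
theorem final49_hE3 : ∀ ℓ, ℓ.Prime → ∀ φ : Additive (Gamma0 N) →+ ℂ,
    (fun ℓ => TXlin ℂ N ℂ ℓ) ℓ (charInvolution N ℂ ℂ φ) =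
      charInvolution N ℂ ℂ ((fun ℓ => TXlin ℂ N ℂ ℓ) ℓ φ) :=
  fun ℓ _ φ => TX_charInvolution ℂ ℓ φ

/-- `hTZ` of `Final49.levelRaising_tail_int` (with `castHom` unfolded). -/
theorem final49_hTZ (ℓ : ℕ) (φ : Additive (Gamma0 N) →+ ℤ) :
    (Int.castAddHom ℂ).comp (TXlin ℤ N ℤ ℓ φ) = TXlin ℂ N ℂ ℓ ((Int.castAddHom ℂ).comp φ) :=
  TX_map (Int.castAddHom ℂ) ℓ φ

end Fermat.Agent.S41.Hecke15
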