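/-
S41 leaf C1 [HECKE-HOM] (helper15): two-level statements for `Γ₀(N)`, `Γ₀(N')`:
* every `heckeHom` between levels preserves parabolic homomorphisms (torsion-free coefficients);
* the two degeneracy maps `degRes` (family `{1}`), `degConj` (family `{heckeDiagMatrix q}`)
  `Hom(Γ₀(N), A) → Hom(Γ₀(N q), A)`.
-/
import Mathlib
import Fermat.Agent.S41.Hecke15.Gamma0

set_option autoImplicit false

open scoped MatrixGroups
open CongruenceSubgroup ModularForm ModularCurve ModularCurve.Period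
open Fermat.Agent.S16.HeckeHom24

namespace Fermat.Agent.S41.Hecke15

variable {A : Type*} [AddCommGroup A]

/-! ### Parabolic stability between two levels -/

/-- Conjugation in `GL₂(ℝ)` preserves the integer trace (two levels). -/
theorem trace_eq_of_conj_levels {N N' : ℕ} {δ : Gamma0 N} {γ : Gamma0 N'} {a : GL (Fin 2) ℝ}
    (h : a * eGL N' γ = eGL N δ * a) :
    ((δ : SL(2, ℤ)) : Matrix (Fin 2) (Fin 2) ℤ).trace =
      ((γ : SL(2, ℤ)) : Matrix (Fin 2) (Fin 2) ℤ).trace := by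
  have h0 : eGL N δ = a * eGL N' γ * a⁻¹ := by rw [h]; group
  have h1 : ((eGL N δ : GL (Fin 2) ℝ) : Matrix (Fin 2) (Fin 2) ℝ).trace =
      ((eGL N' γ : GL (Fin 2) ℝ) : Matrix (Fin 2) (Fin 2) ℝ).trace := by
    rw [h0]
    exact Matrix.trace_units_conj a _
  rw [trace_iota, trace_iota] at h1
  exact_mod_cast h1

/-- **Every double-coset operator between levels preserves parabolic homomorphisms**
(torsion-free coefficients). -/
theorem heckeHom_mem_parabolicHoms [IsAddTorsionFree A] (R : Type*) [Semiring R] [Module R A]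
    {N N' : ℕ} {ι : Type*} [Fintype ι] (α : ι → GL (Fin 2) ℝ)
    (hα : IsStable (eGL N) (eGL N') α) {φ : Additive (Gamma0 N) →+ A}
    (hφ : φ ∈ parabolicHoms R (Gamma0 N) A) :
    heckeHom (eGL N) (eGL_injective N) (eGL N') α hα φ ∈ parabolicHoms R (Gamma0 N') A := by
  rw [mem_parabolicHoms_iff] at hφ ⊢
  intro γ' hγ'
  refine heckeHom_eq_zero_of_pow (eGL N) (eGL_injective N) (eGL N') α hα ?_
    (fun c : Gamma0 N => (((c : SL(2, ℤ)) : Matrix (Fin 2) (Fin 2) ℤ).trace) ^ 2 = 4) φ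
    (fun c hc => hφ c hc) γ' ?_
  · intro n a hn h
    have h0 : n • a = n • (0 : A) := by rw [h, smul_zero]
    exact nsmul_right_injective hn h0
  · intro n _ a c h
    rw [← map_pow] at h
    have h1 := trace_eq_of_conj_levels h
    change (((c : SL(2, ℤ)) : Matrix (Fin 2) (Fin 2) ℤ).trace) ^ 2 = 4
    rw [h1, SubgroupClass.coe_pow]
    exact trace_pow_sq_eq_four (γ' : SL(2, ℤ)) hγ' n

/-! ### The degeneracy map `res` -/

theorem Gamma0_le_of_dvd {N N' : ℕ} (h : N ∣ N') : Gamma0 N' ≤ Gamma0 N := by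
  intro g hg
  exact mem_Gamma0_of_dvd ((Int.natCast_dvd_natCast.mpr h).trans (dvd_of_mem_Gamma0 hg))

/-- The inclusion `Γ₀(N') → Γ₀(N)` for `N ∣ N'`. -/
def inclGamma0 {N N' : ℕ} (h : N ∣ N') : Gamma0 N' →* Gamma0 N :=
  Subgroup.inclusion (Gamma0_le_of_dvd h)

@[simp] theorem inclGamma0_coe {N N' : ℕ} (h : N ∣ N') (γ : Gamma0 N') :
    ((inclGamma0 h γ : Gamma0 N) : SL(2, ℤ)) = γ := rfl

theorem stable_one {N N' : ℕ} (h : N ∣ N') :
    IsStable (eGL N) (eGL N') (fun _ : Unit => (1 : GL (Fin 2) ℝ)) :=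
  isStable_unit _ _ _ fun γ' => ⟨inclGamma0 h γ', by
    rw [one_mul, mul_one]; rfl⟩

/-- **Restriction** `Hom(Γ₀(N), A) → Hom(Γ₀(N'), A)`, `N ∣ N'` (double coset of `1`). -/
noncomputable def degRes {N N' : ℕ} (h : N ∣ N') (A : Type*) [AddCommGroup A] :
    (Additive (Gamma0 N) →+ A) →+ (Additive (Gamma0 N') →+ A) :=
  heckeHom (eGL N) (eGL_injective N) (eGL N') (fun _ : Unit => (1 : GL (Fin 2) ℝ)) (stable_one h)

theorem degRes_apply {N N' : ℕ} (h : N ∣ N') (φ : Additive (Gamma0 N) →+ A) (γ' : Gamma0 N') :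
    degRes h A φ (Additive.ofMul γ') = φ (Additive.ofMul (inclGamma0 h γ')) :=
  heckeHom_unit_apply _ _ _ _ _ φ γ' _ (by rw [one_mul, mul_one]; rfl)

theorem degRes_eq_comp {N N' : ℕ} (h : N ∣ N') (φ : Additive (Gamma0 N) →+ A) :
    degRes h A φ = φ.comp (MonoidHom.toAdditive (inclGamma0 h)) := by
  refine AddMonoidHom.ext fun γ' => ?_
  obtain ⟨γ', rfl⟩ := Additive.ofMul.surjective γ'
  exact degRes_apply h φ γ'

/-! ### The degeneracy map `res ∘ conj` by `diag(q, 1)` -/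

/-- For `γ' = [[a, b], [q c₀, d]]` the matrix `[[a, q b], [c₀, d]] = diag(q,1) γ' diag(q,1)⁻¹`. -/
theorem exists_conjDiag {N q : ℕ} (hq : 0 < q) (γ' : Gamma0 (N * q)) :
    ∃ c : Gamma0 N, (!![(q : ℤ), 0; 0, 1] : Matrix (Fin 2) (Fin 2) ℤ) *
        ((γ' : SL(2, ℤ)) : Matrix (Fin 2) (Fin 2) ℤ) =
      ((c : SL(2, ℤ)) : Matrix (Fin 2) (Fin 2) ℤ) * !![(q : ℤ), 0; 0, 1] := by
  have hdvd : ((N * q : ℕ) : ℤ) ∣ (γ' : SL(2, ℤ)) 1 0 := dvd_of_mem_Gamma0 γ'.2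
  obtain ⟨c₀, hc₀⟩ := hdvd
  have hdet := sl_det (γ' : SL(2, ℤ))
  have hq0 : (q : ℤ) ≠ 0 := by exact_mod_cast hq.ne'
  have hc1 : (γ' : SL(2, ℤ)) 1 0 = (q : ℤ) * ((N : ℤ) * c₀) := by
    rw [hc₀]; push_cast; ring
  have hdet' : (γ' : SL(2, ℤ)) 0 0 * (γ' : SL(2, ℤ)) 1 1 -
      (q : ℤ) * (γ' : SL(2, ℤ)) 0 1 * ((N : ℤ) * c₀) = 1 := by
    rw [hc1] at hdet
    linear_combination hdet
  refine ⟨⟨mkSL ((γ' : SL(2, ℤ)) 0 0) ((q : ℤ) * (γ' : SL(2, ℤ)) 0 1) ((N : ℤ) * c₀)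
    ((γ' : SL(2, ℤ)) 1 1) hdet', ?_⟩, ?_⟩
  · apply mem_Gamma0_of_dvd
    rw [mkSL_10]
    exact dvd_mul_right _ _
  · change _ = ((mkSL _ _ _ _ hdet' : SL(2, ℤ)) : Matrix (Fin 2) (Fin 2) ℤ) * _
    rw [mkSL_coe]
    ext i j
    fin_cases i <;> fin_cases j <;> simp [Matrix.mul_apply, Fin.sum_univ_two, hc1] <;> ring

theorem heckeDiagMatrix_coe {q : ℕ} (hq : q ≠ 0) :
    ((heckeDiagMatrix q : GL (Fin 2) ℝ) : Matrix (Fin 2) (Fin 2) ℝ) =
      (!![(q : ℤ), 0; 0, 1] : Matrix (Fin 2) (Fin 2) ℤ).map (Int.castRingHom ℝ) :=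
  tRep_coe hq none

theorem stable_diag {N q : ℕ} (hq : 0 < q) :
    IsStable (eGL N) (eGL (N * q)) (fun _ : Unit => heckeDiagMatrix q) :=
  isStable_unit _ _ _ fun γ' => by
    obtain ⟨c, hc⟩ := exists_conjDiag hq γ'
    exact ⟨c, gl_mul_eq_of_int (heckeDiagMatrix_coe hq.ne') (iota_coe γ') (iota_coe c)
      (heckeDiagMatrix_coe hq.ne') hc⟩

/-- **The second degeneracy map** `Hom(Γ₀(N), A) → Hom(Γ₀(N q), A)`,
`φ ↦ (γ' ↦ φ (diag(q,1) γ' diag(q,1)⁻¹))` (double coset of `heckeDiagMatrix q`). -/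
noncomputable def degConj {N q : ℕ} (hq : 0 < q) (A : Type*) [AddCommGroup A] :
    (Additive (Gamma0 N) →+ A) →+ (Additive (Gamma0 (N * q)) →+ A) :=
  heckeHom (eGL N) (eGL_injective N) (eGL (N * q)) (fun _ : Unit => heckeDiagMatrix q)
    (stable_diag hq)

theorem degConj_apply {N q : ℕ} (hq : 0 < q) (φ : Additive (Gamma0 N) →+ A)
    (γ' : Gamma0 (N * q)) (c : Gamma0 N)
    (h : heckeDiagMatrix q * eGL (N * q) γ' = eGL N c * heckeDiagMatrix q) :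
    degConj hq A φ (Additive.ofMul γ') = φ (Additive.ofMul c) :=
  heckeHom_unit_apply _ _ _ _ _ φ γ' c h

theorem degConj_apply_int {N q : ℕ} (hq : 0 < q) (φ : Additive (Gamma0 N) →+ A)
    (γ' : Gamma0 (N * q)) (c : Gamma0 N)
    (h : (!![(q : ℤ), 0; 0, 1] : Matrix (Fin 2) (Fin 2) ℤ) *
        ((γ' : SL(2, ℤ)) : Matrix (Fin 2) (Fin 2) ℤ) =
      ((c : SL(2, ℤ)) : Matrix (Fin 2) (Fin 2) ℤ) * !![(q : ℤ), 0; 0, 1]) :
    degConj hq A φ (Additive.ofMul γ') = φ (Additive.ofMul c) :=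
  degConj_apply hq φ γ' c (gl_mul_eq_of_int (heckeDiagMatrix_coe hq.ne') (iota_coe γ') (iota_coe c)
      (heckeDiagMatrix_coe hq.ne') h)

/-- `degRes`, `degConj` preserve parabolic homomorphisms. -/
theorem degRes_mem_parabolicHoms [IsAddTorsionFree A] (R : Type*) [Semiring R] [Module R A]
    {N N' : ℕ} (h : N ∣ N') {φ : Additive (Gamma0 N) →+ A}
    (hφ : φ ∈ parabolicHoms R (Gamma0 N) A) :
    degRes h A φ ∈ parabolicHoms R (Gamma0 N') A :=
  heckeHom_mem_parabolicHoms R _ _ hφ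

theorem degConj_mem_parabolicHoms [IsAddTorsionFree A] (R : Type*) [Semiring R] [Module R A]
    {N q : ℕ} (hq : 0 < q) {φ : Additive (Gamma0 N) →+ A}
    (hφ : φ ∈ parabolicHoms R (Gamma0 N) A) :
    degConj hq A φ ∈ parabolicHoms R (Gamma0 (N * q)) A :=
  heckeHom_mem_parabolicHoms R _ _ hφ

end Fermat.Agent.S41.Hecke15
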