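/-
S41 leaf C1 [HECKE-HOM] (helper15): abstract commutation of a Hecke operator `[τ]` with the operator
of a one-element family `{w}` (`w` normalising `e(Γ)`), and the decomposition of integer matrices
of determinant `ℓ` into `Γ₀(M) · tMat ℓ j` / `Γ₀(M) · uMat ℓ j`.
-/
import Mathlib
import Fermat.Agent.S16.HeckeHom24.IntRel
import Fermat.Agent.S41.Hecke15.Abstract

set_option autoImplicit false
set_option linter.unusedSectionVars false

open scoped MatrixGroups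
open CongruenceSubgroup
open Fermat.Agent.S16.HeckeHom24

namespace Fermat.Agent.S41.Hecke15

section Abstract

variable {G Γ : Type*} [Group G] [Group Γ] {A : Type*} [AddCommGroup A]
variable {ι : Type*} [Fintype ι]

/-- **Commutation with a normalising element.** -/
theorem heckeHom_comm_unit (e : Γ →* G) (he : Function.Injective e) (τ : ι → G)
    (hτ : IsStable e e τ) (hdist : ∀ (i j : ι) (γ : Γ), τ i = e γ * τ j → i = j)
    (w : G) (hw : IsStable e e (fun _ : Unit => w))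
    (hwinv : ∀ γ : Γ, ∃ c : Γ, e γ * w = w * e c)
    (hwτ : ∀ i, ∃ (j : ι) (c : Γ), w * τ i = e c * τ j * w) (φ : Additive Γ →+ A) :
    heckeHom e he e τ hτ (heckeHom e he e (fun _ : Unit => w) hw φ) =
      heckeHom e he e (fun _ : Unit => w) hw (heckeHom e he e τ hτ φ) := by
  rw [heckeHom_comp e he e he e (fun _ : Unit => w) τ hw hτ φ,
    heckeHom_comp e he e he e τ (fun _ : Unit => w) hτ hw φ]
  choose j c hc using hwτ
  have hjinj : Function.Injective j := by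
    intro i i' hii
    have h1 := hc i
    have h2 := hc i'
    rw [hii] at h1
    -- `w τ i = e (c i (c i')⁻¹) (w τ i')`
    have h3 : w * τ i = e (c i * (c i')⁻¹) * (w * τ i') := by
      rw [h2, h1, map_mul, map_inv]
      group
    obtain ⟨c'', hc''⟩ := hwinv (c i * (c i')⁻¹)
    rw [← mul_assoc, hc'', mul_assoc] at h3
    exact hdist i i' c'' (mul_left_cancel h3)
  have hjbij : Function.Bijective j := Finite.injective_iff_bijective.mp hjinj
  let Φ : Unit × ι ≃ ι × Unit :=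
    (Equiv.prodComm Unit ι).trans (Equiv.prodCongr (Equiv.ofBijective j hjbij) (Equiv.refl Unit))
  have hcongr := heckeHom_congr (A := A) e he e (fun p : Unit × ι => w * τ p.2)
    (fun p : ι × Unit => τ p.1 * w) (hw.mul hτ) (hτ.mul hw) Φ (fun p => (c p.2)⁻¹) (by
      rintro ⟨u, i⟩
      change τ (j i) * w = e ((c i)⁻¹) * (w * τ i)
      rw [hc i, map_inv]
      group)
  rw [hcongr]

end Abstract

/-! ### Decomposition of integer matrices of determinant `ℓ` -/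

section Decomp

variable {M ℓ : ℕ}

/-- If `a d - b c = ℓ`, `M ∣ c` and `a` is prime to `ℓ`, then
`[[a, b], [c, d]] = δ * [[1, j], [0, ℓ]]` with `δ ∈ Γ₀(M)`, `j < ℓ`. -/
theorem exists_decomp_uMat (hℓ : 0 < ℓ) {a b c d : ℤ} (hdet : a * d - b * c = ℓ)
    (hM : (M : ℤ) ∣ c) (hcop : IsCoprime (ℓ : ℤ) a) :
    ∃ (j : Fin ℓ) (δ : SL(2, ℤ)), δ ∈ Gamma0 M ∧
      (!![a, b; c, d] : Matrix (Fin 2) (Fin 2) ℤ) = (δ : Matrix (Fin 2) (Fin 2) ℤ) * uMat ℓ j := by
  obtain ⟨u, v, huv⟩ := hcop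
  have hv : (ℓ : ℤ) ∣ v * a - 1 := ⟨-u, by linear_combination huv⟩
  obtain ⟨j, t, ht⟩ := exists_fin_dvd hℓ hv b
  -- `ℓ ∣ d - j c`
  have h1 : a * (d - ((j : ℕ) : ℤ) * c) = (ℓ : ℤ) * (1 + c * t) := by
    linear_combination hdet + c * ht
  have h2 : (ℓ : ℤ) ∣ d - ((j : ℕ) : ℤ) * c := by
    have hcop' : IsCoprime (ℓ : ℤ) a := ⟨u, v, huv⟩
    exact hcop'.dvd_of_dvd_mul_left ⟨1 + c * t, h1⟩
  obtain ⟨s, hs⟩ := h2
  have hℓ0 : (ℓ : ℤ) ≠ 0 := by exact_mod_cast hℓ.ne'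
  have hdet' : a * s - t * c = 1 := by
    apply mul_left_cancel₀ hℓ0
    linear_combination hdet - a * hs + c * ht
  refine ⟨j, mkSL a t c s hdet', mem_Gamma0_of_dvd (by rw [mkSL_10]; exact hM), ?_⟩
  rw [mkSL_coe]
  simp only [uMat, Matrix.mul_fin_two]
  refine mat_ext ?_ ?_ ?_ ?_
  · ring
  · linear_combination ht
  · ring
  · linear_combination hs

/-- If `a d - b c = ℓ` (`ℓ` prime not dividing `M`) and `M ∣ c`, then
`[[a, b], [c, d]] = δ * tMat ℓ j` with `δ ∈ Γ₀(M)`. -/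
theorem exists_decomp_tMat (hℓ : ℓ.Prime) (hℓM : ¬ ℓ ∣ M) {a b c d : ℤ}
    (hdet : a * d - b * c = ℓ) (hM : (M : ℤ) ∣ c) :
    ∃ (j : Option (Fin ℓ)) (δ : SL(2, ℤ)), δ ∈ Gamma0 M ∧
      (!![a, b; c, d] : Matrix (Fin 2) (Fin 2) ℤ) = (δ : Matrix (Fin 2) (Fin 2) ℤ) * tMat ℓ j := by
  have hℓint : Irreducible (ℓ : ℤ) := (Nat.prime_iff_prime_int.mp hℓ).irreducible
  have hℓ0 : (ℓ : ℤ) ≠ 0 := by exact_mod_cast hℓ.ne_zero
  by_cases ha : (ℓ : ℤ) ∣ a
  · obtain ⟨a₁, ha₁⟩ := ha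
    by_cases hc : (ℓ : ℤ) ∣ c
    · obtain ⟨c₁, hc₁⟩ := hc
      have hN : (M : ℤ) ∣ c₁ := by
        have h1 : (M : ℤ) ∣ (ℓ : ℤ) * c₁ := by rw [← hc₁]; exact hM
        have hcop : IsCoprime (M : ℤ) (ℓ : ℤ) := by
          rw [Int.isCoprime_iff_gcd_eq_one, Int.gcd_natCast_natCast]
          exact (Nat.coprime_comm.mp ((Nat.Prime.coprime_iff_not_dvd hℓ).mpr hℓM))
        exact hcop.dvd_of_dvd_mul_left h1
      have hdet' : a₁ * d - b * c₁ = 1 := by
        apply mul_left_cancel₀ hℓ0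
        rw [ha₁, hc₁] at hdet
        linear_combination hdet
      refine ⟨none, mkSL a₁ b c₁ d hdet', mem_Gamma0_of_dvd (by rw [mkSL_10]; exact hN), ?_⟩
      rw [mkSL_coe]
      simp only [tMat, Matrix.mul_fin_two]
      refine mat_ext ?_ ?_ ?_ ?_
      · linear_combination ha₁
      · ring
      · linear_combination hc₁
      · ring
    · -- `ℓ ∣ a`, `ℓ ∤ c`: then `ℓ ∣ b`
      have hcop : IsCoprime (ℓ : ℤ) c := hℓint.coprime_iff_not_dvd.mpr hc
      have hb : (ℓ : ℤ) ∣ b := by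
        have h1 : (ℓ : ℤ) ∣ b * c := ⟨a₁ * d - 1, by rw [ha₁] at hdet; linear_combination -hdet⟩
        exact hcop.dvd_of_dvd_mul_right h1
      obtain ⟨b₁, hb₁⟩ := hb
      obtain ⟨u, v, huv⟩ := hcop
      have hv : (ℓ : ℤ) ∣ v * c - 1 := ⟨-u, by linear_combination huv⟩
      obtain ⟨j, t, ht⟩ := exists_fin_dvd hℓ.pos hv d
      have hdet' : a * t - (b₁ - ((j : ℕ) : ℤ) * a₁) * c = 1 := by
        apply mul_left_cancel₀ hℓ0
        rw [hb₁] at hdet
        linear_combination hdet - a * ht - ((j : ℕ) : ℤ) * c * ha₁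
      refine ⟨some j, mkSL a (b₁ - ((j : ℕ) : ℤ) * a₁) c t hdet',
        mem_Gamma0_of_dvd (by rw [mkSL_10]; exact hM), ?_⟩
      rw [mkSL_coe]
      simp only [tMat, Matrix.mul_fin_two]
      refine mat_ext ?_ ?_ ?_ ?_
      · ring
      · linear_combination hb₁ - ((j : ℕ) : ℤ) * ha₁
      · ring
      · linear_combination ht
  · have hcop : IsCoprime (ℓ : ℤ) a := hℓint.coprime_iff_not_dvd.mpr ha
    obtain ⟨j, δ, hδ, h⟩ := exists_decomp_uMat hℓ.pos hdet hM hcop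
    exact ⟨some j, δ, hδ, h⟩

end Decomp

end Fermat.Agent.S41.Hecke15
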