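/-
S41 leaf C1 [HECKE-HOM] (helper15): the Atkin–Lehner operator `New63.WOp` on `Hom(Γ₀(N q), A)`
commutes with `TX (N q) A ℓ` for every prime `ℓ ≠ q`.
-/
import Mathlib
import Fermat.Agent.S41.Hecke15.Degen
import Fermat.Agent.S41.Hecke15.UnitComm
import Fermat.Agent.S41.New63.New

set_option autoImplicit false
set_option linter.unusedSectionVars false

open scoped MatrixGroups
open CongruenceSubgroup ModularForm ModularCurve ModularCurve.Period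
open Fermat.Agent.S16.HeckeHom24 Fermat.Agent.S41.New63

namespace Fermat.Agent.S41.Hecke15

variable (N q : ℕ) [hqp : Fact q.Prime] (x y : ℤ) (hxy : (q : ℤ) * x - N * y = 1)
variable {A : Type*} [AddCommGroup A]

/-- The integer Atkin–Lehner matrix `[[q x, y], [N q, q]]`. -/
def wInt : Matrix (Fin 2) (Fin 2) ℤ := !![(q : ℤ) * x, y; (N : ℤ) * q, (q : ℤ)]

theorem wAL_coe :
    ((wAL N q x y (q_ne_zero63 q) hxy : GL (Fin 2) ℝ) : Matrix (Fin 2) (Fin 2) ℝ) =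
      (wInt N q x y).map (Int.castRingHom ℝ) := by
  rw [val_wAL]
  ext i j
  fin_cases i <;> fin_cases j <;> simp [wInt]

/-- The `w`-conjugate of an upper triangular integer matrix. -/
def wConjUpper (a b d : ℤ) : Matrix (Fin 2) (Fin 2) ℤ :=
  !![(q : ℤ) * x * a - N * q * x * b - N * y * d, -x * y * a + q * x ^ 2 * b + x * y * d;
    (N : ℤ) * q * (a - N * b - d), -N * y * a + N * q * x * b + q * x * d]

include hxy in
theorem wInt_mul_upper (a b d : ℤ) :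
    wInt N q x y * !![a, b; 0, d] = wConjUpper N q x y a b d * wInt N q x y := by
  simp only [wInt, wConjUpper, Matrix.mul_fin_two]
  refine mat_ext ?_ ?_ ?_ ?_
  · linear_combination (-(q : ℤ) * x * a) * hxy
  · linear_combination (-((q : ℤ) * x * b + y * d)) * hxy
  · linear_combination (-(N : ℤ) * q * a) * hxy
  · linear_combination (-((N : ℤ) * q * b + q * d)) * hxy

include hxy in
theorem wConjUpper_det (a b d : ℤ) :
    ((q : ℤ) * x * a - N * q * x * b - N * y * d) * (-N * y * a + N * q * x * b + q * x * d) -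
      (-x * y * a + q * x ^ 2 * b + x * y * d) * ((N : ℤ) * q * (a - N * b - d)) = a * d := by
  linear_combination (((q : ℤ) * x - N * y + 1) * a * d) * hxy

/-- GL form of an integer identity `W * T = δ * T' * W`. -/
theorem gl_of_int_three {w t t' : GL (Fin 2) ℝ} {W T T' : Matrix (Fin 2) (Fin 2) ℤ}
    {M : ℕ} (δ : Gamma0 M)
    (hw : (w : Matrix (Fin 2) (Fin 2) ℝ) = W.map (Int.castRingHom ℝ))
    (ht : (t : Matrix (Fin 2) (Fin 2) ℝ) = T.map (Int.castRingHom ℝ))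
    (ht' : (t' : Matrix (Fin 2) (Fin 2) ℝ) = T'.map (Int.castRingHom ℝ))
    (h : W * T = ((δ : SL(2, ℤ)) : Matrix (Fin 2) (Fin 2) ℤ) * T' * W) :
    w * t = eGL M δ * t' * w := by
  apply Units.ext
  rw [Units.val_mul, Units.val_mul, Units.val_mul, hw, ht, ht', iota_coe, ← Matrix.map_mul,
    ← Matrix.map_mul, ← Matrix.map_mul, h]

/-- `w τ = δ τ' w` for the `T_ℓ` representatives at level `N q`, `ℓ ∤ N q`. -/
theorem exists_wAL_tRep {ℓ : ℕ} (hℓ : ℓ.Prime) (hℓM : ¬ ℓ ∣ N * q) (i : Option (Fin ℓ)) :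
    ∃ (j : Option (Fin ℓ)) (c : Gamma0 (N * q)),
      wAL N q x y (q_ne_zero63 q) hxy * tRep ℓ i =
        eGL (N * q) c * tRep ℓ j * wAL N q x y (q_ne_zero63 q) hxy := by
  -- write `tMat ℓ i = [[a, b], [0, d]]`
  obtain ⟨a, b, d, hT, had⟩ : ∃ a b d : ℤ, tMat ℓ i = !![a, b; 0, d] ∧ a * d = ℓ := by
    rcases i with _ | i
    · exact ⟨ℓ, 0, 1, rfl, by ring⟩
    · exact ⟨1, ((i : ℕ) : ℤ), ℓ, rfl, by ring⟩
  have hdet := wConjUpper_det N q x y hxy a b d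
  rw [had] at hdet
  have hM : ((N * q : ℕ) : ℤ) ∣ (N : ℤ) * q * (a - N * b - d) := by
    push_cast
    exact dvd_mul_right _ _
  obtain ⟨j, δ, hδ, hdec⟩ := exists_decomp_tMat hℓ hℓM hdet hM
  refine ⟨j, ⟨δ, hδ⟩, gl_of_int_three ⟨δ, hδ⟩ (wAL_coe N q x y hxy) (tRep_coe hℓ.ne_zero i)
    (tRep_coe hℓ.ne_zero j) ?_⟩
  rw [hT, wInt_mul_upper N q x y hxy a b d]
  rw [wConjUpper, hdec]

/-- `w τ = δ τ' w` for the `U_ℓ` representatives at level `N q`, `ℓ ∣ N`. -/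
theorem exists_wAL_uRep {ℓ : ℕ} (hℓ : 0 < ℓ) (hℓN : ℓ ∣ N) (i : Fin ℓ) :
    ∃ (j : Fin ℓ) (c : Gamma0 (N * q)),
      wAL N q x y (q_ne_zero63 q) hxy * uRep ℓ i =
        eGL (N * q) c * uRep ℓ j * wAL N q x y (q_ne_zero63 q) hxy := by
  have hdet := wConjUpper_det N q x y hxy 1 ((i : ℕ) : ℤ) ℓ
  rw [one_mul] at hdet
  have hM : ((N * q : ℕ) : ℤ) ∣ (N : ℤ) * q * (1 - N * ((i : ℕ) : ℤ) - ℓ) := by
    push_cast
    exact dvd_mul_right _ _
  obtain ⟨N₁, hN₁⟩ := hℓN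
  have hcop : IsCoprime (ℓ : ℤ)
      ((q : ℤ) * x * 1 - N * q * x * ((i : ℕ) : ℤ) - N * y * ℓ) := by
    refine ⟨-(N₁ : ℤ) * (y - q * x * ((i : ℕ) : ℤ) - y * ℓ), 1, ?_⟩
    have hN' : (N : ℤ) = (ℓ : ℤ) * N₁ := by exact_mod_cast hN₁
    rw [hN'] at hxy ⊢
    linear_combination hxy
  obtain ⟨j, δ, hδ, hdec⟩ := exists_decomp_uMat hℓ hdet hM hcop
  refine ⟨j, ⟨δ, hδ⟩, gl_of_int_three ⟨δ, hδ⟩ (wAL_coe N q x y hxy) (uRep_coe hℓ.ne' i)
    (uRep_coe hℓ.ne' j) ?_⟩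
  have hT : uMat ℓ i = !![1, ((i : ℕ) : ℤ); 0, (ℓ : ℤ)] := rfl
  rw [hT, wInt_mul_upper N q x y hxy 1 ((i : ℕ) : ℤ) ℓ]
  rw [wConjUpper, hdec]

/-- `w⁻¹` also normalises `Γ₀(N q)`. -/
theorem exists_wAL_conj_inv (γ : Gamma0 (N * q)) :
    ∃ c : Gamma0 (N * q), eGL (N * q) γ * wAL N q x y (q_ne_zero63 q) hxy =
      wAL N q x y (q_ne_zero63 q) hxy * eGL (N * q) c := by
  obtain ⟨γ₀, h10, hsq⟩ := wAL_sq N q x y (q_ne_zero63 q) hxy
  have hγ₀ : γ₀ ∈ Gamma0 (N * q) := by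
    rw [New63.mem_Gamma0_iff_dvd, h10]
    exact ⟨x + 1, by push_cast; ring⟩
  set g₀ : Gamma0 (N * q) := ⟨γ₀, hγ₀⟩ with hg₀
  set w := wAL N q x y (q_ne_zero63 q) hxy with hw
  set s := scalarGL (q : ℝ) (by exact_mod_cast (q_ne_zero63 q)) with hs
  have hsq' : w * w = s * eGL (N * q) g₀ := hsq
  obtain ⟨c, hc⟩ := exists_wAL_conj N q x y hxy (g₀⁻¹ * γ * g₀)
  obtain ⟨c', hc'⟩ := exists_wAL_conj N q x y hxy c
  change w * eGL (N * q) (g₀⁻¹ * γ * g₀) = eGL (N * q) c * w at hc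
  change w * eGL (N * q) c = eGL (N * q) c' * w at hc'
  -- `w w e(g₀⁻¹ γ g₀) = e(c') w w`
  have h1 : w * w * eGL (N * q) (g₀⁻¹ * γ * g₀) = eGL (N * q) c' * (w * w) := by
    rw [mul_assoc, hc, ← mul_assoc, hc', mul_assoc]
  have hcen : eGL (N * q) c' * s = s * eGL (N * q) c' := by
    rw [hs]
    exact (scalarGL_central _ _ _).symm
  have h1' : s * eGL (N * q) g₀ * eGL (N * q) (g₀⁻¹ * γ * g₀) =
      eGL (N * q) c' * (s * eGL (N * q) g₀) := by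
    rw [← hsq']; exact h1
  have h1'' : s * (eGL (N * q) g₀ * eGL (N * q) (g₀⁻¹ * γ * g₀)) =
      s * (eGL (N * q) c' * eGL (N * q) g₀) :=
    calc s * (eGL (N * q) g₀ * eGL (N * q) (g₀⁻¹ * γ * g₀))
        = s * eGL (N * q) g₀ * eGL (N * q) (g₀⁻¹ * γ * g₀) := (mul_assoc _ _ _).symm
      _ = eGL (N * q) c' * (s * eGL (N * q) g₀) := h1'
      _ = (eGL (N * q) c' * s) * eGL (N * q) g₀ := (mul_assoc _ _ _).symm
      _ = (s * eGL (N * q) c') * eGL (N * q) g₀ := by rw [hcen]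
      _ = s * (eGL (N * q) c' * eGL (N * q) g₀) := mul_assoc _ _ _
  have h2 : eGL (N * q) (g₀ * (g₀⁻¹ * γ * g₀)) = eGL (N * q) (c' * g₀) := by
    rw [map_mul, map_mul (eGL (N * q)) c' g₀]
    exact mul_left_cancel h1''
  have h3 : g₀ * (g₀⁻¹ * γ * g₀) = c' * g₀ := eGL_injective _ h2
  have h4 : c' = γ := by
    have : γ * g₀ = c' * g₀ := by rw [← h3]; group
    exact (mul_right_cancel this).symm
  exact ⟨c, by rw [← h4, hc']⟩

variable [NeZero (N * q)]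

/-- **`W_q` commutes with `TX (N q) ℓ`**, `ℓ` a prime different from `q`. -/
theorem WOp_TX_comm {ℓ : ℕ} (hℓ : ℓ.Prime) (hℓq : ℓ ≠ q)
    (φ : Additive (Gamma0 (N * q)) →+ A) :
    WOp N q x y hxy (TX (N * q) A ℓ φ) = TX (N * q) A ℓ (WOp N q x y hxy φ) := by
  by_cases hℓM : ℓ ∣ N * q
  · -- `ℓ ∣ N`
    have hℓN : ℓ ∣ N := by
      rcases (Nat.Prime.dvd_mul hℓ).mp hℓM with h | h
      · exact h
      · exact absurd ((Nat.prime_dvd_prime_iff_eq hℓ hqp.out).mp h) hℓq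
    rw [TX_of_dvd hℓ hℓM]
    exact (heckeHom_comm_unit (eGL (N * q)) (eGL_injective _) (uRep ℓ) (stable_uRep hℓM)
      (fun i j γ h => (uSys (N * q) hℓM).distinct i j γ h)
      (wAL N q x y (q_ne_zero63 q) hxy) (wAL_isStable N q x y hxy)
      (exists_wAL_conj_inv N q x y hxy) (exists_wAL_uRep N q x y hxy hℓ.pos hℓN) φ).symm
  · rw [TX_of_not_dvd hℓ hℓM]
    exact (heckeHom_comm_unit (eGL (N * q)) (eGL_injective _) (tRep ℓ) (stable_tRep hℓ hℓM)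
      (fun i j γ h => (tSys (N * q) hℓ hℓM).distinct i j γ h)
      (wAL N q x y (q_ne_zero63 q) hxy) (wAL_isStable N q x y hxy)
      (exists_wAL_conj_inv N q x y hxy) (exists_wAL_tRep N q x y hxy hℓ hℓM) φ).symm

end Fermat.Agent.S41.Hecke15
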