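/-
S41 leaf C1 [HECKE-HOM] (helper15): abstract commutation of a "same family" Hecke operator with the
corestriction (trace) attached to a right transversal.

`Γ₂ → Γ₁` (`inc`), `e₁ ∘ inc = e₂`; `τ` a family stable for `(e₁, e₁)` and `(e₂, e₂)` with distinct
`e₁(Γ₁)`-cosets; `ρ` a right transversal of `Γ₂` in `Γ₁`; KEY: `τ i * e₁ r = e₂ g * τ j ⇒ r ∈ Γ₂`.
Then `[ρ] ∘ [τ]_{Γ₂} = [τ]_{Γ₁} ∘ [ρ]`.  Mathlib + Hecke15/Abstract only.
-/
import Mathlib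
import Fermat.Agent.S41.Hecke15.Abstract

set_option autoImplicit false
set_option linter.unusedSectionVars false

namespace Fermat.Agent.S41.Hecke15

open scoped BigOperators

section CoresComm

variable {G Γ₁ Γ₂ : Type*} [Group G] [Group Γ₁] [Group Γ₂]
variable {A : Type*} [AddCommGroup A]
variable {ι κ : Type*} [Fintype ι] [Fintype κ]

/-- **A same-family Hecke operator commutes with corestriction.** -/
theorem heckeHom_comm_cores (e₁ : Γ₁ →* G) (he₁ : Function.Injective e₁) (e₂ : Γ₂ →* G)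
    (he₂ : Function.Injective e₂) (inc : Γ₂ →* Γ₁) (hinc : ∀ g, e₁ (inc g) = e₂ g)
    (τ : ι → G) (hτ₁ : IsStable e₁ e₁ τ) (hτ₂ : IsStable e₂ e₂ τ)
    (hdist : ∀ (i j : ι) (γ : Γ₁), τ i = e₁ γ * τ j → i = j)
    (ρ : κ → G) (hρ : IsStable e₂ e₁ ρ) (r : κ → Γ₁) (hr : ∀ x, ρ x = e₁ (r x))
    (hρinj : ∀ (x y : κ) (c : Γ₂), ρ x = e₂ c * ρ y → x = y)
    (hρsurj : ∀ γ : Γ₁, ∃ (x : κ) (c : Γ₂), e₁ γ = e₂ c * ρ x)
    (hkey : ∀ (i j : ι) (s : Γ₁) (g : Γ₂), τ i * e₁ s = e₂ g * τ j → ∃ c : Γ₂, s = inc c)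
    (φ : Additive Γ₂ →+ A) :
    heckeHom e₂ he₂ e₁ ρ hρ (heckeHom e₂ he₂ e₂ τ hτ₂ φ) =
      heckeHom e₁ he₁ e₁ τ hτ₁ (heckeHom e₂ he₂ e₁ ρ hρ φ) := by
  rw [heckeHom_comp e₂ he₂ e₂ he₂ e₁ τ ρ hτ₂ hρ φ, heckeHom_comp e₂ he₂ e₁ he₁ e₁ ρ τ hρ hτ₁ φ]
  -- bookkeeping of `τ` against the elements `r x`
  choose σ c hc using fun x => hτ₁ (r x)
  choose x' c' hc' using fun p : ι × κ => hρsurj (c p.2 p.1)
  -- the comparison map
  let Φ : ι × κ → κ × ι := fun p => (x' p, σ p.2 p.1)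
  have hΦ : ∀ p : ι × κ, ρ (Φ p).1 * τ (Φ p).2 = e₂ ((c' p)⁻¹) * (τ p.1 * ρ p.2) := by
    intro p
    change ρ (x' p) * τ (σ p.2 p.1) = _
    rw [hr p.2, hc p.2 p.1, hc' p, map_inv]
    group
  have hinj : Function.Injective Φ := by
    rintro ⟨i, x⟩ ⟨j, y⟩ hp
    have h1 := hΦ (i, x)
    have h2 := hΦ (j, y)
    rw [hp] at h1
    rw [h1] at h2
    -- `τ i * ρ x = e₂ g * (τ j * ρ y)`
    have h3 : τ i * ρ x = e₂ (c' (i, x) * (c' (j, y))⁻¹) * (τ j * ρ y) := by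
      have : τ i * ρ x = (e₂ ((c' (i, x))⁻¹))⁻¹ * (e₂ ((c' (j, y))⁻¹) * (τ j * ρ y)) := by
        rw [← h2]; group
      rw [this, map_mul, map_inv, map_inv]
      group
    have h4 : τ i * e₁ (r x * (r y)⁻¹) = e₂ (c' (i, x) * (c' (j, y))⁻¹) * τ j := by
      rw [map_mul, map_inv, ← hr x, ← hr y]
      have : τ i * (ρ x * (ρ y)⁻¹) = (τ i * ρ x) * (ρ y)⁻¹ := by group
      rw [this, h3]
      group
    obtain ⟨c₀, hc₀⟩ := hkey i j _ _ h4
    have hxy : x = y := by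
      apply hρinj x y c₀
      rw [hr x, hr y, ← hinc c₀, ← hc₀, ← map_mul]
      congr 1
      group
    subst hxy
    have hij : i = j := by
      apply hdist i j (inc (c' (i, x) * (c' (j, x))⁻¹))
      rw [hinc]
      rw [← mul_assoc] at h3
      exact mul_right_cancel h3
    rw [hij]
  have hbij : Function.Bijective Φ := by
    rw [Fintype.bijective_iff_injective_and_card]
    refine ⟨hinj, ?_⟩
    rw [Fintype.card_prod, Fintype.card_prod, mul_comm]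
  have hcongr := heckeHom_congr (A := A) e₂ he₂ e₁ (fun p : ι × κ => τ p.1 * ρ p.2)
    (fun p : κ × ι => ρ p.1 * τ p.2) (hτ₂.mul hρ) (hρ.mul hτ₁) (Equiv.ofBijective Φ hbij)
    (fun p => (c' p)⁻¹) (fun p => hΦ p)
  rw [hcongr]

end CoresComm

end Fermat.Agent.S41.Hecke15
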