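/-
S41 leaf C1 [HECKE-HOM] (helper15): `TX ℓ` commutes with the corestriction attached to ANY right
transversal `ρ` of `Γ₀(N q)` in `Γ₀(N)`, for a prime `ℓ` coprime to `q`.
-/
import Mathlib
import Fermat.Agent.S41.Hecke15.Degen
import Fermat.Agent.S41.Hecke15.CoresComm

set_option autoImplicit false

open scoped MatrixGroups
open CongruenceSubgroup ModularForm ModularCurve ModularCurve.Period
open Fermat.Agent.S16.HeckeHom24

namespace Fermat.Agent.S41.Hecke15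

variable {A : Type*} [AddCommGroup A]

/-- Transfer of a `GL₂(ℝ)` identity `a * b = c * d` back to integer matrices. -/
theorem int_mul_eq_of_gl {a b c d : GL (Fin 2) ℝ} {A' B C D : Matrix (Fin 2) (Fin 2) ℤ}
    (ha : (a : Matrix (Fin 2) (Fin 2) ℝ) = A'.map (Int.castRingHom ℝ))
    (hb : (b : Matrix (Fin 2) (Fin 2) ℝ) = B.map (Int.castRingHom ℝ))
    (hc : (c : Matrix (Fin 2) (Fin 2) ℝ) = C.map (Int.castRingHom ℝ))
    (hd : (d : Matrix (Fin 2) (Fin 2) ℝ) = D.map (Int.castRingHom ℝ))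
    (h : a * b = c * d) : A' * B = C * D := by
  have h1 : ((a * b : GL (Fin 2) ℝ) : Matrix (Fin 2) (Fin 2) ℝ) = (c * d : GL (Fin 2) ℝ) :=
    congrArg _ h
  rw [Units.val_mul, Units.val_mul, ha, hb, hc, hd, ← Matrix.map_mul, ← Matrix.map_mul] at h1
  exact Matrix.map_injective (Int.cast_injective (α := ℝ)) h1

/-- Arithmetic core of the KEY property. -/
theorem dvd_of_mul_dvd {N q ℓ : ℕ} (hcop : Nat.Coprime ℓ q) {s g : ℤ} (hN : (N : ℤ) ∣ s)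
    (hg : ((N * q : ℕ) : ℤ) ∣ g) (h : (ℓ : ℤ) * s = g) : ((N * q : ℕ) : ℤ) ∣ s := by
  obtain ⟨t, rfl⟩ := hN
  by_cases hN0 : (N : ℤ) = 0
  · simp [hN0]
  rw [← h] at hg
  push_cast at hg ⊢
  have h1 : (N : ℤ) * (q : ℤ) ∣ (N : ℤ) * ((ℓ : ℤ) * t) := by
    have : (ℓ : ℤ) * ((N : ℤ) * t) = (N : ℤ) * ((ℓ : ℤ) * t) := by ring
    rwa [this] at hg
  have h2 : (q : ℤ) ∣ (ℓ : ℤ) * t := (mul_dvd_mul_iff_left hN0).mp h1
  have hcop' : IsCoprime (q : ℤ) (ℓ : ℤ) := Nat.isCoprime_iff_coprime.mpr hcop.symm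
  exact mul_dvd_mul_left _ (hcop'.dvd_of_dvd_mul_left h2)

/-- **KEY** for the `T_ℓ` representatives. -/
theorem key_tRep {N q ℓ : ℕ} (hℓ : ℓ ≠ 0) (hcop : Nat.Coprime ℓ q) (i j : Option (Fin ℓ))
    (s : Gamma0 N) (g : Gamma0 (N * q))
    (h : tRep ℓ i * eGL N s = eGL (N * q) g * tRep ℓ j) :
    ∃ c : Gamma0 (N * q), s = inclGamma0 (Dvd.intro q rfl) c := by
  have hint := int_mul_eq_of_gl (tRep_coe hℓ i) (iota_coe s) (iota_coe g) (tRep_coe hℓ j) h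
  have hsN : (N : ℤ) ∣ (s : SL(2, ℤ)) 1 0 := dvd_of_mem_Gamma0 s.2
  have hgN : ((N * q : ℕ) : ℤ) ∣ (g : SL(2, ℤ)) 1 0 := dvd_of_mem_Gamma0 g.2
  have h10 := congrFun (congrFun hint 1) 0
  have hL1 : ∀ (k : Fin ℓ) (S : Matrix (Fin 2) (Fin 2) ℤ),
      (tMat ℓ (some k) * S) 1 0 = (ℓ : ℤ) * S 1 0 := by
    intro k S; simp [tMat, Matrix.mul_apply, Fin.sum_univ_two]
  have hL2 : ∀ (S : Matrix (Fin 2) (Fin 2) ℤ), (tMat ℓ none * S) 1 0 = S 1 0 := by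
    intro S; simp [tMat, Matrix.mul_apply, Fin.sum_univ_two]
  have hR1 : ∀ (k : Fin ℓ) (S : Matrix (Fin 2) (Fin 2) ℤ),
      (S * tMat ℓ (some k)) 1 0 = S 1 0 := by
    intro k S; simp [tMat, Matrix.mul_apply, Fin.sum_univ_two]
  have hR2 : ∀ (S : Matrix (Fin 2) (Fin 2) ℤ), (S * tMat ℓ none) 1 0 = S 1 0 * (ℓ : ℤ) := by
    intro S; simp [tMat, Matrix.mul_apply, Fin.sum_univ_two]
  have hℓ' : (ℓ : ℤ) ≠ 0 := by exact_mod_cast hℓ
  have hs : ((N * q : ℕ) : ℤ) ∣ (s : SL(2, ℤ)) 1 0 := by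
    rcases i with _ | i <;> rcases j with _ | j
    · -- none, none : s₁₀ = g₁₀ * ℓ
      rw [hL2, hR2] at h10
      rw [h10]
      exact Dvd.dvd.mul_right hgN _
    · -- none, some : s₁₀ = g₁₀
      rw [hL2, hR1] at h10
      rw [h10]
      exact hgN
    · -- some, none : ℓ * s₁₀ = g₁₀ * ℓ
      rw [hL1, hR2] at h10
      have : (s : SL(2, ℤ)) 1 0 = (g : SL(2, ℤ)) 1 0 := by
        apply mul_left_cancel₀ hℓ'
        rw [h10, mul_comm]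
      rw [this]
      exact hgN
    · -- some, some : ℓ * s₁₀ = g₁₀
      rw [hL1, hR1] at h10
      exact dvd_of_mul_dvd hcop hsN hgN h10
  exact ⟨⟨(s : SL(2, ℤ)), mem_Gamma0_of_dvd hs⟩, rfl⟩

/-- **KEY** for the `U_ℓ` representatives. -/
theorem key_uRep {N q ℓ : ℕ} (hℓ : ℓ ≠ 0) (hcop : Nat.Coprime ℓ q) (i j : Fin ℓ)
    (s : Gamma0 N) (g : Gamma0 (N * q))
    (h : uRep ℓ i * eGL N s = eGL (N * q) g * uRep ℓ j) :
    ∃ c : Gamma0 (N * q), s = inclGamma0 (Dvd.intro q rfl) c :=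
  key_tRep hℓ hcop (some i) (some j) s g h

section Comm

variable {N q : ℕ} [NeZero N] [NeZero (N * q)] {κ : Type*} [Fintype κ]

/-- **`TX ℓ` commutes with corestriction** along any right transversal `ρ` of `Γ₀(N q)` in
`Γ₀(N)`, `ℓ` a prime coprime to `q`. -/
theorem TX_comm_cores {ℓ : ℕ} (hℓ : ℓ.Prime) (hcop : Nat.Coprime ℓ q)
    (ρ : κ → GL (Fin 2) ℝ) (hρ : IsStable (eGL (N * q)) (eGL N) ρ)
    (r : κ → Gamma0 N) (hr : ∀ x, ρ x = eGL N (r x))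
    (hρinj : ∀ (x y : κ) (c : Gamma0 (N * q)), ρ x = eGL (N * q) c * ρ y → x = y)
    (hρsurj : ∀ γ : Gamma0 N, ∃ (x : κ) (c : Gamma0 (N * q)), eGL N γ = eGL (N * q) c * ρ x)
    (φ : Additive (Gamma0 (N * q)) →+ A) :
    heckeHom (eGL (N * q)) (eGL_injective _) (eGL N) ρ hρ (TX (N * q) A ℓ φ) =
      TX N A ℓ (heckeHom (eGL (N * q)) (eGL_injective _) (eGL N) ρ hρ φ) := by
  have hinc : ∀ g : Gamma0 (N * q), eGL N (inclGamma0 (Dvd.intro q rfl) g) = eGL (N * q) g :=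
    fun _ => rfl
  by_cases hℓN : ℓ ∣ N
  · have hℓNq : ℓ ∣ N * q := Dvd.dvd.mul_right hℓN q
    rw [TX_of_dvd hℓ hℓNq, TX_of_dvd hℓ hℓN]
    exact heckeHom_comm_cores (eGL N) (eGL_injective N) (eGL (N * q)) (eGL_injective _)
      (inclGamma0 (Dvd.intro q rfl)) hinc (uRep ℓ) (stable_uRep hℓN) (stable_uRep hℓNq)
      (fun i j γ h => (uSys N hℓN).distinct i j γ h) ρ hρ r hr hρinj hρsurj
      (key_uRep hℓ.ne_zero hcop) φ
  · have hℓNq : ¬ ℓ ∣ N * q := by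
      intro h
      rcases (Nat.Prime.dvd_mul hℓ).mp h with h | h
      · exact hℓN h
      · exact hℓ.one_lt.ne' (Nat.eq_one_of_dvd_coprimes hcop (dvd_refl ℓ) h)
    rw [TX_of_not_dvd hℓ hℓNq, TX_of_not_dvd hℓ hℓN]
    exact heckeHom_comm_cores (eGL N) (eGL_injective N) (eGL (N * q)) (eGL_injective _)
      (inclGamma0 (Dvd.intro q rfl)) hinc (tRep ℓ) (stable_tRep hℓ hℓN) (stable_tRep hℓ hℓNq)
      (fun i j γ h => (tSys N hℓ hℓN).distinct i j γ h) ρ hρ r hr hρinj hρsurj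
      (key_tRep hℓ.ne_zero hcop) φ

end Comm

end Fermat.Agent.S41.Hecke15
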