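/-
S41 leaf C1 [HECKE-HOM] (helper15): Hecke equivariance of the two trace maps
`β₁ = degCores`, `β₂ = degCores ∘ WOp` (helper63's operators), and the `q`-new lattice
`KZ = ker β₁ ⊓ ker β₂ ⊓ parabolicHoms` with its stability under all `TX (N q) ℤ ℓ` and
`TX q ∘ TX q = id` — the literal `hKpar`, `hKstab`, `hKq` of `Final49.levelRaising_tail_int`.
-/
import Mathlib
import Fermat.Agent.S41.Hecke15.CoresCommGamma0
import Fermat.Agent.S41.Hecke15.WComm
import Fermat.Agent.S41.New63.BetaAlpha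

set_option autoImplicit false
set_option linter.unusedSectionVars false

open scoped MatrixGroups
open CongruenceSubgroup ModularForm ModularCurve ModularCurve.Period Matrix.SpecialLinearGroup
open Fermat.Agent.S16.HeckeHom24 Fermat.Agent.S41.New63

namespace Fermat.Agent.S41.Hecke15

variable (N q : ℕ) [hqp : Fact q.Prime] (x y : ℤ) (hxy : (q : ℤ) * x - N * y = 1)
variable {A : Type*} [AddCommGroup A]

/-- the cosets `Γ₀(N q) · coresFam k` are pairwise distinct. -/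
theorem coresFam_inj (hN : N ≠ 0) (hqN : ¬ q ∣ N) (k k' : OnePoint (ZMod q))
    (c : Gamma0 (N * q))
    (hkk : coresFam N q x y hxy k = eGL (N * q) c * coresFam N q x y hxy k') : k = k' := by
  have hkk' : eGL63 N (coresElt N q x y hxy k)
      = eGL63 N (⟨(c : SL(2, ℤ)), Gamma0_mul_le N q _ c.2⟩ * coresElt N q x y hxy k') := by
    rw [map_mul, ← coresFam_eq, ← coresFam_eq, hkk]
    rfl
  have hkk'' := eGL63_injective N hkk'
  have hval : (coresElt N q x y hxy k : SL(2, ℤ))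
      = (c : SL(2, ℤ)) * (coresElt N q x y hxy k' : SL(2, ℤ)) := by
    rw [hkk'']; rfl
  induction k using OnePoint.rec with
  | infty =>
    induction k' using OnePoint.rec with
    | infty => rfl
    | coe j' =>
      exfalso
      apply rMat_not_mem N q x y hxy hN (j'.val : ℤ)
      have : rMat N q x y hxy (j'.val : ℤ) = (c : SL(2, ℤ))⁻¹ := by
        have h1 : (1 : SL(2, ℤ)) = (c : SL(2, ℤ)) * rMat N q x y hxy (j'.val : ℤ) := hval
        exact eq_inv_of_mul_eq_one_right h1.symm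
      rw [this]
      exact (Gamma0 (N * q)).inv_mem c.2
  | coe j =>
    induction k' using OnePoint.rec with
    | infty =>
      exfalso
      apply rMat_not_mem N q x y hxy hN (j.val : ℤ)
      have h1 : rMat N q x y hxy (j.val : ℤ) = (c : SL(2, ℤ)) * 1 := hval
      rw [h1, mul_one]
      exact c.2
    | coe j' =>
      have h1 : rMat N q x y hxy (j.val : ℤ)
          = (c : SL(2, ℤ)) * rMat N q x y hxy (j'.val : ℤ) := hval
      have h2 : rMat N q x y hxy (j.val : ℤ) * (rMat N q x y hxy (j'.val : ℤ))⁻¹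
          = (c : SL(2, ℤ)) := by rw [h1]; group
      have h3 := rMat_coset_inj N q x y hxy hqN j j' (by rw [h2]; exact c.2)
      rw [h3]

/-- every element of `Γ₀(N)` lies in some `Γ₀(N q) · coresFam k`. -/
theorem coresFam_surj (hN : N ≠ 0) (hqN : ¬ q ∣ N) (γ : Gamma0 N) :
    ∃ (k : OnePoint (ZMod q)) (c : Gamma0 (N * q)),
      eGL N γ = eGL (N * q) c * coresFam N q x y hxy k := by
  obtain ⟨σ, c, h⟩ := coresFam_isStable N q x y hxy hN hqN γ
  refine ⟨σ OnePoint.infty, c OnePoint.infty, ?_⟩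
  have := h OnePoint.infty
  rw [coresFam_infty, one_mul] at this
  exact this

variable [NeZero N] [NeZero (N * q)]

/-- **`β₁ = degCores` is Hecke equivariant** (`ℓ` prime, `ℓ ≠ q`; both `T_ℓ` and `U_ℓ`). -/
theorem degCores_TX_comm (hN : N ≠ 0) (hqN : ¬ q ∣ N) {ℓ : ℕ} (hℓ : ℓ.Prime) (hℓq : ℓ ≠ q)
    (φ : Additive (Gamma0 (N * q)) →+ A) :
    degCores N q x y hxy hN hqN (TX (N * q) A ℓ φ) =
      TX N A ℓ (degCores N q x y hxy hN hqN φ) :=
  TX_comm_cores hℓ ((Nat.coprime_primes hℓ hqp.out).mpr hℓq) (coresFam N q x y hxy)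
    (coresFam_isStable N q x y hxy hN hqN) (coresElt N q x y hxy) (coresFam_eq N q x y hxy)
    (coresFam_inj N q x y hxy hN hqN) (coresFam_surj N q x y hxy hN hqN) φ

/-- **`β₂ = degCores ∘ WOp` is Hecke equivariant** (`ℓ` prime, `ℓ ≠ q`). -/
theorem degCoresW_TX_comm (hN : N ≠ 0) (hqN : ¬ q ∣ N) {ℓ : ℕ} (hℓ : ℓ.Prime) (hℓq : ℓ ≠ q)
    (φ : Additive (Gamma0 (N * q)) →+ A) :
    degCores N q x y hxy hN hqN (WOp N q x y hxy (TX (N * q) A ℓ φ)) =
      TX N A ℓ (degCores N q x y hxy hN hqN (WOp N q x y hxy φ)) := by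
  rw [WOp_TX_comm N q x y hxy hℓ hℓq, degCores_TX_comm N q x y hxy hN hqN hℓ hℓq]

/-! ### The `q`-new lattice -/

/-- The `q`-new lattice `ker β₁ ⊓ ker β₂` inside the parabolic homomorphisms of `Γ₀(N q)`. -/
def KZ (hN : N ≠ 0) (hqN : ¬ q ∣ N) : Submodule ℤ (Additive (Gamma0 (N * q)) →+ ℤ) where
  carrier := {φ | φ ∈ parabolicHoms ℤ (Gamma0 (N * q)) ℤ ∧
    degCores N q x y hxy hN hqN φ = 0 ∧ degCores N q x y hxy hN hqN (WOp N q x y hxy φ) = 0}
  zero_mem' := ⟨Submodule.zero_mem _, map_zero _, by rw [map_zero, map_zero]⟩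
  add_mem' := by
    rintro φ ψ ⟨h1, h2, h3⟩ ⟨k1, k2, k3⟩
    exact ⟨Submodule.add_mem _ h1 k1, by rw [map_add, h2, k2, add_zero],
      by rw [map_add, map_add, h3, k3, add_zero]⟩
  smul_mem' := by
    rintro n φ ⟨h1, h2, h3⟩
    exact ⟨Submodule.smul_mem _ n h1, by rw [map_zsmul, h2, smul_zero],
      by rw [map_zsmul, map_zsmul, h3, smul_zero]⟩

theorem mem_KZ_iff (hN : N ≠ 0) (hqN : ¬ q ∣ N) (φ : Additive (Gamma0 (N * q)) →+ ℤ) :
    φ ∈ KZ N q x y hxy hN hqN ↔ φ ∈ parabolicHoms ℤ (Gamma0 (N * q)) ℤ ∧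
      degCores N q x y hxy hN hqN φ = 0 ∧
      degCores N q x y hxy hN hqN (WOp N q x y hxy φ) = 0 := Iff.rfl

/-- `hKpar`. -/
theorem KZ_le_parabolicHoms (hN : N ≠ 0) (hqN : ¬ q ∣ N) :
    KZ N q x y hxy hN hqN ≤ parabolicHoms ℤ (Gamma0 (N * q)) ℤ := fun _ h => h.1

/-- `hKstab`: the new lattice is stable under ALL `TX (N q) ℤ ℓ`, `ℓ` prime. -/
theorem KZ_stable (hN : N ≠ 0) (hqN : ¬ q ∣ N) :
    ∀ ℓ, ℓ.Prime → ∀ φ ∈ KZ N q x y hxy hN hqN,
      (fun ℓ => TXlin ℤ (N * q) ℤ ℓ) ℓ φ ∈ KZ N q x y hxy hN hqN := by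
  rintro ℓ hℓ φ ⟨h1, h2, h3⟩
  change TX (N * q) ℤ ℓ φ ∈ _
  refine ⟨TX_mem_parabolicHoms ℤ ℓ h1, ?_, ?_⟩
  · by_cases hℓq : ℓ = q
    · subst hℓq
      rw [TX_eq_neg_WOp N ℓ x y hxy hN hqN φ h3, map_neg, h3, neg_zero]
    · rw [degCores_TX_comm N q x y hxy hN hqN hℓ hℓq, h2, map_zero]
  · by_cases hℓq : ℓ = q
    · subst hℓq
      rw [TX_eq_neg_WOp N ℓ x y hxy hN hqN φ h3, map_neg, WOp_WOp, map_neg, h2, neg_zero]
    · rw [degCoresW_TX_comm N q x y hxy hN hqN hℓ hℓq, h3, map_zero]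

/-- `hKq`: `TX q ∘ TX q = id` on the new lattice. -/
theorem KZ_sq (hN : N ≠ 0) (hqN : ¬ q ∣ N) :
    ∀ φ ∈ KZ N q x y hxy hN hqN,
      (fun ℓ => TXlin ℤ (N * q) ℤ ℓ) q ((fun ℓ => TXlin ℤ (N * q) ℤ ℓ) q φ) = φ := by
  rintro φ ⟨_, h2, h3⟩
  exact TX_TX_of_mem_ker N q x y hxy hN hqN φ h2 h3

end Fermat.Agent.S41.Hecke15
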